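/-
Program C (S55), package C9b, leaf L2-P (helper93): the two GALOIS-THEORETIC leaves of L2-P,
as statements in Prelude vocabulary (no proofs here).

`Qb = AlgebraicClosure ℚ`, `GQ = Gal(Qb/ℚ)`, `A` a valuation subring of `Qb` over a prime `ℓ`.

* `DecStatement` (DEC): for a number field `F ⊆ Qb` there is a "Frobenius of `F` at `A`":
  an element `φ` of the decomposition group of `A` fixing `F` such that, for every finite
  `K ⊇ F` stable under `Gal(Qb/F)` in which `A` is unramified (inertia of `A` fixes `K`),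
  every `d` in the decomposition group of `A` fixing `F` agrees on `K` with a power `φ ^ k`,
  `k : ℕ`.
* `OrbStatement` (ORB): `GQ` permutes transitively the valuation subrings over `ℓ`.
-/
import Mathlib
import Fermat.Prelude.Def_GroupCohomology_ContinuousUnramified

set_option autoImplicit false

namespace Fermat.Agent.S55.H93

open scoped Pointwise

/-- (DEC): decomposition groups at unramified places are generated by a Frobenius. -/
def DecStatement : Prop :=
  ∀ (F : IntermediateField ℚ (AlgebraicClosure ℚ)), FiniteDimensional ℚ F →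
    ∀ (ℓ : ℕ), ℓ.Prime → ∀ A : ValuationSubring (AlgebraicClosure ℚ), A.LiesOverPrime ℓ →
      ∃ φ : AlgebraicClosure ℚ ≃ₐ[ℚ] AlgebraicClosure ℚ,
        φ ∈ A.decompositionSubgroup ℚ ∧ φ ∈ F.fixingSubgroup ∧
        ∀ K : IntermediateField ℚ (AlgebraicClosure ℚ), FiniteDimensional ℚ K → F ≤ K →
          (∀ g ∈ F.fixingSubgroup, ∀ x ∈ K, g x ∈ K) →
          A.inertiaSubgroupIn ℚ ≤ K.fixingSubgroup →
          ∀ d : AlgebraicClosure ℚ ≃ₐ[ℚ] AlgebraicClosure ℚ,
            d ∈ A.decompositionSubgroup ℚ → d ∈ F.fixingSubgroup →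
            ∃ k : ℕ, (φ ^ k)⁻¹ * d ∈ K.fixingSubgroup

/-- (ORB): the valuation subrings of `Qb` over a prime `ℓ` are conjugate. -/
def OrbStatement : Prop :=
  ∀ (ℓ : ℕ), ℓ.Prime → ∀ A A' : ValuationSubring (AlgebraicClosure ℚ),
    A.LiesOverPrime ℓ → A'.LiesOverPrime ℓ →
    ∃ g : AlgebraicClosure ℚ ≃ₐ[ℚ] AlgebraicClosure ℚ, g • A = A'

end Fermat.Agent.S55.H93
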