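/-
Program C (S55), package C3 (local fields in the `PadicAlgCl q` model), helper93:
Galois-theoretic transport between the field model of `H66/LocalDefs.lean` and the abstract
group cohomology of a finite group `G`, a normal subgroup `S` and the quotient `G ⧸ S`.

For `L ≤ E` finite Galois over `F` (inside `Ω = PadicAlgCl q`), `G := E ≃ₐ[F] E`,
`A := Rep.ofAlgebraAutOnUnits F E`, `S := (resHom h).ker`:

* `quotEquiv h : G ⧸ S ≃* (L ≃ₐ[F] L)` and `invEquiv h : (Eˣ)^S ≃ Lˣ`; the induced isomorphism
  `quotIso h n : Hⁿ(G ⧸ S, A^S) ≅ Hⁿ(Gal(L/F), Lˣ)`;  `inflH2 h = (quotIso h 2).inv ≫ inf`;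
* `kerEquiv h : Gal(E/L) ≃* S`; the induced isomorphism
  `kerIso h n : Hⁿ(Gal(E/L), Eˣ) ≅ Hⁿ(S, A)`;  `resH2 h = res ≫ (kerIso h 2).inv`;
* Hilbert 90: `isZero_H1_kerRes h : IsZero (H¹(S, A))`.
-/
import Fermat.Agent.S55.H66.LocalDefs

set_option autoImplicit false

noncomputable section

namespace Fermat.Agent.S55.H93

open CategoryTheory groupCohomology Rep IntermediateField
open Fermat.Agent.S55.H66

variable {q : ℕ} [Fact q.Prime]
variable {F : Type} [Field F] [Algebra F (PadicAlgCl q)]
variable {L E : IntermediateField F (PadicAlgCl q)}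

/-! ### The kernel of restriction -/

/-- `Gal(E/L)` as a subgroup of `Gal(E/F)`: the kernel of restriction to `L`. -/
abbrev kerRes [Normal F L] (h : L ≤ E) : Subgroup (E ≃ₐ[F] E) := (resHom h).ker

theorem resHom_surjective [Normal F L] [Normal F E] (h : L ≤ E) :
    Function.Surjective (resHom h) := by
  letI : Algebra L E := (inclusion h).toRingHom.toAlgebra
  haveI : IsScalarTower F L E := IsScalarTower.of_algebraMap_eq (fun _ => rfl)
  exact AlgEquiv.restrictNormalHom_surjective E

theorem mem_kerRes_iff [Normal F L] (h : L ≤ E) (σ : E ≃ₐ[F] E) :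
    σ ∈ kerRes h ↔ ∀ x : L, σ (inclusion h x) = inclusion h x := by
  rw [MonoidHom.mem_ker]
  constructor
  · intro hσ x
    apply Subtype.ext
    rw [← resHom_apply h σ x, hσ]
    rfl
  · intro hσ
    ext x
    rw [resHom_apply h σ x, hσ x]
    rfl

theorem mem_kerRes_iff' [Normal F L] (h : L ≤ E) (σ : E ≃ₐ[F] E) :
    σ ∈ kerRes h ↔ ∀ x : E, (x : PadicAlgCl q) ∈ L → σ x = x := by
  rw [mem_kerRes_iff]
  constructor
  · intro hσ x hx
    exact hσ ⟨x, hx⟩
  · intro hσ x
    exact hσ _ x.2

/-- The kernel of restriction is the fixing subgroup of `L` (as an intermediate field of `E`). -/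
theorem kerRes_eq_fixingSubgroup [Normal F L] (h : L ≤ E) :
    kerRes h = (IntermediateField.restrict h).fixingSubgroup := by
  ext σ
  rw [mem_kerRes_iff', IntermediateField.mem_fixingSubgroup_iff]
  constructor
  · intro hσ x hx
    exact hσ x ((IntermediateField.mem_restrict h x).1 hx)
  · intro hσ x hx
    exact hσ x ((IntermediateField.mem_restrict h x).2 hx)

/-- An element of `E` fixed by the kernel of restriction lies in `L`. -/
theorem mem_of_fixed [Normal F L] [FiniteDimensional F E] [IsGalois F E] (h : L ≤ E) (y : E)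
    (hy : ∀ σ ∈ kerRes h, σ y = y) : (y : PadicAlgCl q) ∈ L := by
  rw [← IntermediateField.mem_restrict h y,
    ← IsGalois.fixedField_fixingSubgroup (IntermediateField.restrict h),
    IntermediateField.mem_fixedField_iff]
  intro σ hσ
  exact hy σ (by rw [kerRes_eq_fixingSubgroup]; exact hσ)

/-! ### The quotient `G ⧸ S` and the invariants `(Eˣ)^S` -/

section Quot

variable [Normal F L] (h : L ≤ E)

theorem ρ_apply (σ : E ≃ₐ[F] E) (v : Additive Eˣ) :
    ((Additive.toMul ((Rep.ofAlgebraAutOnUnits F E).ρ σ v) : Eˣ) : E) =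
      σ ((Additive.toMul v : Eˣ) : E) := rfl

omit [Normal F L] in
theorem unitsIncl_apply (x : Additive Lˣ) :
    ((Additive.toMul (unitsIncl h x) : Eˣ) : E) = inclusion h ((Additive.toMul x : Lˣ) : L) := rfl

theorem unitsIncl_mem_invariants (x : Additive Lˣ) :
    unitsIncl h x ∈
      Representation.invariants ((Rep.ofAlgebraAutOnUnits F E).ρ.comp (kerRes h).subtype) := by
  intro s
  apply Additive.toMul.injective
  apply Units.ext
  change ((Additive.toMul ((Rep.ofAlgebraAutOnUnits F E).ρ s.1 (unitsIncl h x)) : Eˣ) : E) = _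
  rw [ρ_apply, unitsIncl_apply]
  exact (mem_kerRes_iff h s.1).1 s.2 _

/-- The inclusion `Lˣ → (Eˣ)^S`. -/
def toInv : Additive Lˣ →ₗ[ℤ]
    Representation.invariants ((Rep.ofAlgebraAutOnUnits F E).ρ.comp (kerRes h).subtype) :=
  (unitsIncl h).codRestrict _ (unitsIncl_mem_invariants h)

theorem toInv_injective : Function.Injective (toInv h) := by
  intro x y hxy
  have h1 : unitsIncl h x = unitsIncl h y := congrArg Subtype.val hxy
  apply Additive.toMul.injective
  apply Units.ext
  apply Subtype.ext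
  have h2 := congrArg (fun v : Additive Eˣ => (((Additive.toMul v : Eˣ) : E) : PadicAlgCl q)) h1
  exact h2

theorem toInv_surjective [FiniteDimensional F E] [IsGalois F E] :
    Function.Surjective (toInv h) := by
  rintro ⟨v, hv⟩
  have hfix : ∀ σ ∈ kerRes h, σ ((Additive.toMul v : Eˣ) : E) = ((Additive.toMul v : Eˣ) : E) := by
    intro σ hσ
    have := hv ⟨σ, hσ⟩
    have h2 := congrArg (fun w : Additive Eˣ => ((Additive.toMul w : Eˣ) : E)) this
    exact h2
  have hmem := mem_of_fixed h _ hfix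
  have hne : (⟨(((Additive.toMul v : Eˣ) : E) : PadicAlgCl q), hmem⟩ : L) ≠ 0 := by
    intro h0
    have h1 : (((Additive.toMul v : Eˣ) : E) : PadicAlgCl q) = 0 := congrArg Subtype.val h0
    have h2 : ((Additive.toMul v : Eˣ) : E) = 0 := Subtype.ext h1
    exact (Additive.toMul v : Eˣ).ne_zero h2
  refine ⟨Additive.ofMul (Units.mk0 _ hne), ?_⟩
  apply Subtype.ext
  apply Additive.toMul.injective
  apply Units.ext
  apply Subtype.ext
  rfl

/-- `(Eˣ)^S ≃ Lˣ`. -/
def invEquiv [FiniteDimensional F E] [IsGalois F E] :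
    Representation.invariants ((Rep.ofAlgebraAutOnUnits F E).ρ.comp (kerRes h).subtype) ≃ₗ[ℤ] Additive Lˣ :=
  (LinearEquiv.ofBijective (toInv h) ⟨toInv_injective h, toInv_surjective h⟩).symm

theorem invEquiv_symm_apply [FiniteDimensional F E] [IsGalois F E] (x : Additive Lˣ) :
    (invEquiv h).symm x = toInv h x := rfl

theorem invEquiv_toInv [FiniteDimensional F E] [IsGalois F E] (x : Additive Lˣ) :
    invEquiv h (toInv h x) = x :=
  (LinearEquiv.ofBijective (toInv h) ⟨toInv_injective h, toInv_surjective h⟩).symm_apply_apply x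

/-- `G ⧸ S ≃* Gal(L/F)`. -/
def quotEquiv [Normal F E] : (E ≃ₐ[F] E) ⧸ kerRes h ≃* (L ≃ₐ[F] L) :=
  QuotientGroup.quotientKerEquivOfSurjective (resHom h) (resHom_surjective h)

theorem quotEquiv_mk [Normal F E] (σ : E ≃ₐ[F] E) :
    quotEquiv h (QuotientGroup.mk σ) = resHom h σ := rfl

end Quot

section QuotIso

variable [IsGalois F L] [FiniteDimensional F E] [IsGalois F E] (h : L ≤ E)

omit [FiniteDimensional F E] [IsGalois F E] in
theorem quot_ρ_toInv (σ : E ≃ₐ[F] E) (x : Additive Lˣ) :
    ((Rep.ofAlgebraAutOnUnits F E).quotientToInvariants (kerRes h)).ρ (QuotientGroup.mk σ)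
      (toInv h x) = toInv h ((Rep.ofAlgebraAutOnUnits F L).ρ (resHom h σ) x) := by
  apply Subtype.ext
  apply Additive.toMul.injective
  apply Units.ext
  apply Subtype.ext
  exact (resHom_apply h σ ((Additive.toMul x : Lˣ) : L)).symm

theorem invEquiv_comm (g : (E ≃ₐ[F] E) ⧸ kerRes h) :
    (invEquiv h).toLinearMap ∘ₗ
        ((Rep.ofAlgebraAutOnUnits F E).quotientToInvariants (kerRes h)).ρ g =
      (Rep.ofAlgebraAutOnUnits F L).ρ (quotEquiv h g) ∘ₗ (invEquiv h).toLinearMap := by
  induction g using QuotientGroup.induction_on with | H σ =>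
  apply LinearMap.ext
  intro v
  obtain ⟨x, rfl⟩ := toInv_surjective h v
  change invEquiv h (((Rep.ofAlgebraAutOnUnits F E).quotientToInvariants (kerRes h)).ρ
      (QuotientGroup.mk σ) (toInv h x)) =
    (Rep.ofAlgebraAutOnUnits F L).ρ (resHom h σ) (invEquiv h (toInv h x))
  exact (congrArg (invEquiv h) (quot_ρ_toInv h σ x)).trans
    ((invEquiv_toInv h _).trans
      (congrArg ((Rep.ofAlgebraAutOnUnits F L).ρ (resHom h σ)) (invEquiv_toInv h x).symm))

/-- `Hⁿ(G ⧸ S, (Eˣ)^S) ≅ Hⁿ(Gal(L/F), Lˣ)`. -/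
def quotIso (n : ℕ) :
    groupCohomology ((Rep.ofAlgebraAutOnUnits F E).quotientToInvariants (kerRes h)) n ≅
      groupCohomology (Rep.ofAlgebraAutOnUnits F L) n :=
  mapIso (quotEquiv h) (invEquiv h) (invEquiv_comm h) n

/-- Inflation in the field model is the abstract inflation, up to the isomorphism `quotIso`. -/
theorem inflH2_eq :
    inflH2 h = (quotIso h 2).inv ≫
      map (QuotientGroup.mk' (kerRes h))
        (ofHom <| (Rep.ofAlgebraAutOnUnits F E).ρ.quotientToInvariants_lift (kerRes h)) 2 := by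
  refine Eq.trans (map_congr ?_ ?_ 2) (map_comp _ _ _ _ 2)
  · ext σ x
    rfl
  · apply LinearMap.ext
    intro x
    rfl

end QuotIso

/-! ### The subgroup `S ≃ Gal(E/L)` -/

section Ker

variable [Normal F L] (h : L ≤ E)

omit [Normal F L] in
theorem upEquiv_symm_inclusion (x : L) :
    (upEquiv h).symm (inclusion h x) = algebraMap L (extendScalars h) x := by
  apply Subtype.ext
  rw [upEquiv_symm_apply_coe]
  rfl

theorem upHom_mem_kerRes (σ : (extendScalars h) ≃ₐ[L] (extendScalars h)) :
    upHom h σ ∈ kerRes h := by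
  rw [mem_kerRes_iff]
  intro x
  apply Subtype.ext
  rw [upHom_apply_coe, upEquiv_symm_inclusion, AlgEquiv.commutes]
  rfl

/-- `Gal(E/L) → S`. -/
def kerHom : ((extendScalars h) ≃ₐ[L] (extendScalars h)) →* kerRes h :=
  (upHom h).codRestrict (kerRes h) (upHom_mem_kerRes h)

theorem kerHom_coe (σ : (extendScalars h) ≃ₐ[L] (extendScalars h)) :
    ((kerHom h σ : kerRes h) : E ≃ₐ[F] E) = upHom h σ := rfl

omit [Normal F L] in
theorem upHom_apply_upEquiv (σ : (extendScalars h) ≃ₐ[L] (extendScalars h))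
    (y : extendScalars h) : upHom h σ (upEquiv h y) = upEquiv h (σ y) := by
  apply Subtype.ext
  rw [upHom_apply_coe, AlgEquiv.symm_apply_apply]
  rfl

theorem kerHom_injective : Function.Injective (kerHom h) := by
  intro σ τ hστ
  have h1 : upHom h σ = upHom h τ := congrArg Subtype.val hστ
  ext y
  have h2 := congrArg (fun ρ : E ≃ₐ[F] E => ((ρ (upEquiv h y) : E) : PadicAlgCl q)) h1
  simp only [upHom_apply_upEquiv, upEquiv_apply_coe] at h2
  exact h2

theorem kerHom_surjective : Function.Surjective (kerHom h) := by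
  rintro ⟨s, hs⟩
  have hs' := (mem_kerRes_iff h s).1 hs
  let r : (extendScalars h) ≃+* (extendScalars h) :=
    ((upEquiv h).toRingEquiv.trans s.toRingEquiv).trans (upEquiv h).symm.toRingEquiv
  have hr : ∀ x : L, r (algebraMap L (extendScalars h) x) = algebraMap L (extendScalars h) x := by
    intro x
    change (upEquiv h).symm (s (upEquiv h (algebraMap L (extendScalars h) x))) = _
    have h1 : upEquiv h (algebraMap L (extendScalars h) x) = inclusion h x := by
      apply Subtype.ext
      rfl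
    rw [h1, hs' x, upEquiv_symm_inclusion]
  refine ⟨AlgEquiv.ofRingEquiv hr, ?_⟩
  apply Subtype.ext
  ext y
  rw [kerHom_coe, upHom_apply_coe]
  change ((upEquiv h).symm (s (upEquiv h ((upEquiv h).symm y))) : PadicAlgCl q) = _
  rw [upEquiv_symm_apply_coe, AlgEquiv.apply_symm_apply]

/-- `Gal(E/L) ≃* S`. -/
def kerEquiv : ((extendScalars h) ≃ₐ[L] (extendScalars h)) ≃* kerRes h :=
  MulEquiv.ofBijective (kerHom h) ⟨kerHom_injective h, kerHom_surjective h⟩

theorem kerEquiv_coe (σ : (extendScalars h) ≃ₐ[L] (extendScalars h)) :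
    ((kerEquiv h σ : kerRes h) : E ≃ₐ[F] E) = upHom h σ := rfl

omit [Normal F L] in
/-- `(E over L)ˣ ≃ Eˣ`, additively. -/
def unitsDown : Additive (extendScalars h)ˣ ≃ₗ[ℤ] Additive Eˣ :=
  (MulEquiv.toAdditive (Units.mapEquiv (upEquiv h).toMulEquiv)).toIntLinearEquiv

omit [Normal F L] in
theorem unitsDown_apply (y : Additive (extendScalars h)ˣ) :
    ((Additive.toMul (unitsDown h y) : Eˣ) : E) =
      upEquiv h ((Additive.toMul y : (extendScalars h)ˣ) : extendScalars h) := rfl

omit [Normal F L] in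
theorem unitsDown_symm_eq (v : Additive Eˣ) : (unitsDown h).symm v = unitsUp h v := rfl

end Ker

section KerIso

variable [Normal F L] (h : L ≤ E)

theorem unitsDown_comm (g : (extendScalars h) ≃ₐ[L] (extendScalars h)) :
    (unitsDown h).toLinearMap ∘ₗ (Rep.ofAlgebraAutOnUnits L (extendScalars h)).ρ g =
      (res (kerRes h).subtype (Rep.ofAlgebraAutOnUnits F E)).ρ (kerEquiv h g) ∘ₗ
        (unitsDown h).toLinearMap := by
  apply LinearMap.ext
  intro y
  apply Additive.toMul.injective
  apply Units.ext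
  exact (upHom_apply_upEquiv h g _).symm

/-- `Hⁿ(Gal(E/L), Eˣ) ≅ Hⁿ(S, Eˣ)`. -/
def kerIso (n : ℕ) :
    groupCohomology (Rep.ofAlgebraAutOnUnits L (extendScalars h)) n ≅
      groupCohomology (res (kerRes h).subtype (Rep.ofAlgebraAutOnUnits F E)) n :=
  mapIso (kerEquiv h) (unitsDown h) (unitsDown_comm h) n

/-- Restriction in the field model is the abstract restriction, up to the isomorphism `kerIso`. -/
theorem resH2_eq :
    resH2 h = map (kerRes h).subtype
      (𝟙 (res (kerRes h).subtype (Rep.ofAlgebraAutOnUnits F E))) 2 ≫ (kerIso h 2).inv := by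
  refine Eq.trans (map_congr ?_ ?_ 2) (map_comp _ _ _ _ 2)
  · ext σ x
    rfl
  · apply LinearMap.ext
    intro x
    rfl

omit [Normal F L] in
theorem finiteDimensional_extendScalars [FiniteDimensional F E] :
    FiniteDimensional L (extendScalars h) := by
  haveI : Module.Finite F (extendScalars h) :=
    Module.Finite.equiv (upEquiv h).symm.toLinearEquiv
  exact Module.Finite.of_restrictScalars_finite F L (extendScalars h)

/-- Hilbert 90 for `E/L`, on the subgroup `S` of `Gal(E/F)`. -/
theorem isZero_H1_kerRes [FiniteDimensional F E] :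
    Limits.IsZero (groupCohomology (res (kerRes h).subtype (Rep.ofAlgebraAutOnUnits F E)) 1) := by
  haveI := finiteDimensional_extendScalars h
  haveI : Subsingleton (groupCohomology (Rep.ofAlgebraAutOnUnits L (extendScalars h)) 1) :=
    (H1ofAutOnUnitsUnique L (extendScalars h)).instSubsingleton
  exact Limits.IsZero.of_iso (ModuleCat.isZero_of_subsingleton _) (kerIso h 1).symm

end KerIso

end Fermat.Agent.S55.H93
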