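/-
Program C (S55), package C3 (local fields in the `PadicAlgCl q` model), helper93:
leaves L6c `LeafInflInj` and L6d `LeafInfRes` of `H66/LocalSpec.lean`.

Inflation `H²(Gal(L/F), Lˣ) → H²(Gal(E/F), Eˣ)` is injective and the inflation–restriction
sequence is exact at `H²(Gal(E/F), Eˣ)`: transport of the abstract degree-2 inflation–restriction
theorem (`H55/InfRes2Full.lean`, leaf C1-c) along the Galois dictionary of `GalTransport.lean`,
with Hilbert 90 for `E/L` as the vanishing of `H¹`.
-/
import Fermat.Agent.S55.H66.LocalSpec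
import Fermat.Agent.S55.H55.InfRes2Full
import Fermat.Agent.S55.H93.GalTransport

set_option autoImplicit false

noncomputable section

namespace Fermat.Agent.S55.H93

open CategoryTheory groupCohomology Rep IntermediateField
open Fermat.Agent.S55.H66

variable {q : ℕ} [Fact q.Prime]
variable {F : Type} [Field F] [Algebra F (PadicAlgCl q)]
variable {L E : IntermediateField F (PadicAlgCl q)}

/-- Inflation is injective on `H²` (field model). -/
theorem inflH2_injective [IsGalois F L] [FiniteDimensional F E] [IsGalois F E] (h : L ≤ E) :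
    Function.Injective (inflH2 h).hom := by
  rw [inflH2_eq h]
  have h1 : Function.Injective ((quotIso h 2).inv).hom :=
    (ModuleCat.mono_iff_injective _).1 inferInstance
  have h2 := Fermat.Agent.S55.H55.InfRes2.inf_injective (Rep.ofAlgebraAutOnUnits F E) (kerRes h)
    (isZero_H1_kerRes h)
  intro x y hxy
  exact h1 (h2 hxy)

/-- Exactness of inflation–restriction at `H²(Gal(E/F), Eˣ)` (field model). -/
theorem exists_inflH2_eq_of_resH2_eq_zero [IsGalois F L] [FiniteDimensional F E] [IsGalois F E]
    (h : L ≤ E) (x : groupCohomology.H2 (Rep.ofAlgebraAutOnUnits F E))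
    (hx : (resH2 h).hom x = 0) : ∃ y, (inflH2 h).hom y = x := by
  rw [resH2_eq h] at hx
  have h1 : Function.Injective ((kerIso h 2).inv).hom :=
    (ModuleCat.mono_iff_injective _).1 inferInstance
  have hx' : (map (kerRes h).subtype
      (𝟙 (res (kerRes h).subtype (Rep.ofAlgebraAutOnUnits F E))) 2).hom x = 0 := by
    apply h1
    rw [map_zero]
    exact hx
  obtain ⟨y, hy⟩ := Fermat.Agent.S55.H55.InfRes2.exists_inf_eq_of_res_eq_zero
    (Rep.ofAlgebraAutOnUnits F E) (kerRes h) (isZero_H1_kerRes h) x hx'
  refine ⟨((quotIso h 2).hom).hom y, ?_⟩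
  rw [inflH2_eq h]
  have h3 : ((quotIso h 2).inv).hom (((quotIso h 2).hom).hom y) = y := by
    have := congrArg (fun f => f.hom y) (quotIso h 2).hom_inv_id
    exact this
  change (map (QuotientGroup.mk' (kerRes h))
    (ofHom <| (Rep.ofAlgebraAutOnUnits F E).ρ.quotientToInvariants_lift (kerRes h)) 2).hom
      (((quotIso h 2).inv).hom (((quotIso h 2).hom).hom y)) = x
  rw [h3, hy]

/-- **Leaf L6c** of C3. -/
theorem leafInflInj (q : ℕ) [Fact q.Prime] : LeafInflInj q := by
  intro F _ _ _ _ _ L E _ _ _ _ h
  exact inflH2_injective h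

/-- **Leaf L6d** of C3. -/
theorem leafInfRes (q : ℕ) [Fact q.Prime] : LeafInfRes q := by
  intro F _ _ _ _ _ L E _ _ _ _ h x hx
  exact exists_inflH2_eq_of_resH2_eq_zero h x hx

end Fermat.Agent.S55.H93
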