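/-
Program C (S55), package C8, export (B4), assembly (CLASS-CYC) of helper29's SPEC v2 part 3
(`H29/C8Cls.lean`) — helper93.

For a cyclic layer `K/k` of number fields of degree `p ^ a` with `μ_p ⊆ k`:
`H²(Gal(K/k), J_K) → H²(Gal(K/k), C_K)` is onto and `#H²(Gal(K/k), C_K) = p ^ a`.

Proof.  Onto: the next term `H³(Gal(K/k), Kˣ)` of the long exact sequence vanishes (CYC-H3).
Let `s = ∑_v jinv v : H²(J_K) → ℚ/ℤ` (additive by J-FIN).  Its kernel is the image of
`H²(Kˣ)` (`⊇`: reciprocity (B2) and `jinv_ideleDiag`; `⊆`: CYC-KER), i.e. the kernel of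
`H²(J_K) → H²(C_K)`.  Hence `H²(C_K) ≃ range s`.  The range of `s` is killed by `p ^ a = #G` and
contains `1 / p ^ a` (J-SURJ at a place of full local degree, FULL-PLACE), so it is the
`p ^ a`-torsion of `ℚ/ℤ`, of order `p ^ a`.
-/
import Fermat.Agent.S55.H29.C8Cls

set_option autoImplicit false

open CategoryTheory groupCohomology Rep

noncomputable section

namespace Fermat.Agent.S55.H93

open Fermat.Agent.S55.H88 Fermat.Agent.S55.H66 Fermat.Agent.S55.H29

attribute [local instance] H88.factOfPrimes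

/-! ### Abstract cores -/

/-- If `g` is onto and `ker g = ker s`, the target of `g` has the cardinality of the range of
`s`. -/
theorem natCard_eq_card_range {B C Q : Type*} [AddCommGroup B] [AddCommGroup C]
    [AddCommGroup Q] (g : B →+ C) (s : B →+ Q) (hg : Function.Surjective g)
    (hker : g.ker = s.ker) : Nat.card C = Nat.card s.range := by
  have h1 : g.ker.index = Nat.card g.range := AddSubgroup.index_ker g
  have h2 : s.ker.index = Nat.card s.range := AddSubgroup.index_ker s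
  have h3 : g.range = ⊤ := AddMonoidHom.range_eq_top.mpr hg
  have h4 : Nat.card g.range = Nat.card C := by
    rw [h3]
    exact Nat.card_congr AddSubgroup.topEquiv.toEquiv
  rw [← h4, ← h1, hker, h2]

/-- A subgroup of `ℚ/ℤ` killed by `n > 0` and containing the class of `1 / n` has exactly `n`
elements. -/
theorem natCard_eq_of_torsion (T : AddSubgroup QZ) (n : ℕ) (hn : 0 < n)
    (hT : ∀ t ∈ T, n • t = 0) (h0 : (((1 : ℚ) / (n : ℚ) : ℚ) : QZ) ∈ T) : Nat.card T = n := by
  have hn0 : (n : ℚ) ≠ 0 := Nat.cast_ne_zero.mpr hn.ne'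
  have hTeq : T = AddSubgroup.zmultiples (((1 : ℚ) / (n : ℚ) : ℚ) : QZ) := by
    apply le_antisymm
    · intro t ht
      obtain ⟨x, rfl⟩ := QuotientAddGroup.mk_surjective t
      have h : ((n • x : ℚ) : QZ) = 0 := hT _ ht
      rw [AddCircle.coe_eq_zero_iff] at h
      obtain ⟨m, hm⟩ := h
      refine AddSubgroup.mem_zmultiples_iff.mpr ⟨m, ?_⟩
      have hx : x = m • ((1 : ℚ) / (n : ℚ)) := by
        rw [zsmul_eq_mul, mul_one, nsmul_eq_mul] at hm
        rw [zsmul_eq_mul]
        field_simp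
        linarith
      show m • (((1 : ℚ) / (n : ℚ) : ℚ) : QZ) = ((x : ℚ) : QZ)
      rw [hx]
      rfl
    · exact AddSubgroup.zmultiples_le_of_mem h0
  rw [hTeq, Nat.card_zmultiples]
  exact AddCircle.addOrderOf_period_div hn

/-! ### (CLASS-CYC) -/

/-- **(CLASS-CYC)** from CYC-H3, CYC-KER, reciprocity (B2), J-SURJ, FULL-PLACE and J-FIN. -/
theorem classCyc_of {p : ℕ} (hCycH3 : CycH3Statement) (hKer : CycKerStatement p)
    (hRec : RecStatement NFLayer p) (hSurj : JSurjStatement) (hFull : FullPlaceStatement)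
    (hFin : JFinStatement) : ClassCycStatement p := by
  intro hp hp2 k K _ _ _ _ _ _ _ hζ a ha
  have hX := ideleShortComplex_shortExact k K
  have hcard : Nat.card (K ≃ₐ[k] K) = p ^ a := by
    rw [IsGalois.card_aut_eq_finrank, ha]
  -- (i) `H²(J) → H²(C)` is onto
  have hsurj : Function.Surjective (mapH2 (ideleClassProj k K)) := by
    intro c
    have hs : Subsingleton (groupCohomology (Rep.ofAlgebraAutOnUnits k K) 3) :=
      ModuleCat.subsingleton_of_isZero (hCycH3 k K)
    have hz : (δ hX 2 3 rfl).hom c = 0 := @Subsingleton.elim _ hs _ _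
    obtain ⟨y, hy⟩ := (ShortComplex.moduleCat_exact_iff _).1
      (mapShortComplex₃_exact hX (i := 2) (j := 3) rfl) c hz
    exact ⟨y, hy⟩
  refine ⟨hsurj, ?_⟩
  -- the sum of the local invariants
  let s : groupCohomology (ideleRep k K) 2 →+ QZ :=
    AddMonoidHom.mk' (fun y => ∑ᶠ v : FinPlace k, jinv k K v y) (fun y y' => by
      simp only [map_add]
      exact finsum_add_distrib (hFin k K y) (hFin k K y'))
  have hs : ∀ y, s y = ∑ᶠ v : FinPlace k, jinv k K v y := fun _ => rfl
  have hex : ∀ y : groupCohomology (ideleRep k K) 2, mapH2 (ideleClassProj k K) y = 0 →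
      ∃ α : groupCohomology (Rep.ofAlgebraAutOnUnits k K) 2, mapH2 (ideleDiag k K) α = y :=
    fun y hy => exists_mapH2_eq hX y hy
  -- (ii) `ker (H²(J) → H²(C)) = ker s`
  have hker : (mapH2 (ideleClassProj k K)).ker = s.ker := by
    ext y
    rw [AddMonoidHom.mem_ker, AddMonoidHom.mem_ker]
    constructor
    · intro hy
      obtain ⟨α, hα⟩ := hex y hy
      rw [← hα, hs]
      simp_rw [jinv_ideleDiag]
      exact hRec (layerOf k K)
        ⟨k, K, inferInstance, inferInstance, inferInstance, inferInstance, inferInstance,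
          inferInstance, rfl⟩ α
        ⟨a, by
          rw [← hcard]
          exact Fermat.Agent.S55.H80.card_smul_eq_zero (Rep.ofAlgebraAutOnUnits k K) 2
            (Or.inr rfl) α⟩
    · intro hy
      obtain ⟨α, rfl⟩ := hKer hp hp2 k K hζ ⟨a, ha⟩ y hy
      exact congrArg (fun g => g.hom α) (mapShortComplex₂ (ideleShortComplex k K) 2).zero
  rw [natCard_eq_card_range _ s hsurj hker]
  refine natCard_eq_of_torsion s.range (p ^ a) (pow_pos hp.pos a) ?_ ?_
  · rintro _ ⟨y, rfl⟩
    rw [← map_nsmul, ← hcard,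
      Fermat.Agent.S55.H80.card_smul_eq_zero (ideleRep k K) 2 (Or.inr rfl) y, map_zero]
  · obtain ⟨v₀, hv₀⟩ := hFull k K p hp ⟨a, ha⟩
    have hpa : ((p ^ a : ℕ) : ℚ) ≠ 0 := Nat.cast_ne_zero.mpr (pow_pos hp.pos a).ne'
    obtain ⟨y, hy, hy'⟩ := hSurj k K v₀ (((1 : ℚ) / ((p ^ a : ℕ) : ℚ) : ℚ) : QZ) (by
      rw [hv₀, ha]
      show (((p ^ a) • ((1 : ℚ) / ((p ^ a : ℕ) : ℚ)) : ℚ) : QZ) = 0
      rw [AddCircle.coe_eq_zero_iff]
      refine ⟨1, ?_⟩
      rw [one_smul, nsmul_eq_mul]
      field_simp)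
    refine ⟨y, ?_⟩
    rw [hs, finsum_eq_single _ v₀ (fun v hv => hy' v hv), hy]

end Fermat.Agent.S55.H93
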