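/-
Program C (S55), package C9b, leaf L2-P (helper93): the ARITHMETIC leaf (SAT) of L2-P as a
statement in Prelude vocabulary (no proof here; owner helper56).

`Qb = AlgebraicClosure ℚ`.  Let `K ⊆ Qb` be a number field unramified outside `S` and `b` an
integer-valued function on the valuation subrings of `Qb`, invariant under `Gal(Qb/K)`, which is
nonzero only over finitely many primes (a "divisor of `K`").  Then a multiple `m • b`, `m > 0`
prime to `p`, is the divisor outside `S` of an element `x ≠ 0` of a number field `N ⊆ Qb`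
unramified outside `S`:  for every valuation subring `A` over a prime `ℓ ∉ S`, `x / ℓ ^ (m * b A)`
is a unit of `A`.  (True for `p ∈ S`: the class group of `K` is finite, and a class of order
`p ^ a` capitulates in `K(μ, x ^ (1 / p ^ a)) ⊆ ℚ_S`.)

The finiteness hypothesis is over PRIMES (`Nat.Primes`): a valuation subring "lies over" every
multiple of its prime in the sense of `ValuationSubring.LiesOverPrime`.
-/
import Mathlib
import Fermat.Prelude.Def_GroupCohomology_ContinuousUnramified

set_option autoImplicit false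

namespace Fermat.Agent.S55.H93

open scoped Pointwise

/-- (SAT): saturation of the divisors of `ℚ_S` up to factors prime to `p`. -/
def SatStatement (p : ℕ) (S : Finset Nat.Primes) : Prop :=
  ∀ (K : IntermediateField ℚ (AlgebraicClosure ℚ)), K.IsUnramifiedOutside S →
    ∀ b : ValuationSubring (AlgebraicClosure ℚ) → ℤ,
      (∀ σ ∈ K.fixingSubgroup, ∀ A, b (σ • A) = b A) →
      {ℓ : Nat.Primes | ∃ A : ValuationSubring (AlgebraicClosure ℚ),
        A.LiesOverPrime (ℓ : ℕ) ∧ b A ≠ 0}.Finite →
      ∃ m : ℕ, 0 < m ∧ ¬ p ∣ m ∧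
        ∃ (N : IntermediateField ℚ (AlgebraicClosure ℚ)) (x : AlgebraicClosure ℚ),
          N.IsUnramifiedOutside S ∧ x ∈ N ∧ x ≠ 0 ∧
          ∀ ℓ : Nat.Primes, ℓ ∉ S → ∀ A : ValuationSubring (AlgebraicClosure ℚ),
            A.LiesOverPrime (ℓ : ℕ) →
            x / ((ℓ : ℕ) : AlgebraicClosure ℚ) ^ ((m : ℤ) * b A) ∈ A ∧
              ((ℓ : ℕ) : AlgebraicClosure ℚ) ^ ((m : ℤ) * b A) / x ∈ A

end Fermat.Agent.S55.H93
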