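/-
Program C (S55), package C9b, leaf (hlam) / (LAM), sub-leaf (HL-a) DICT-RES (helper93; asked by
helper56, designer of (hlam)).

THIS FILE REPLACES `S55/H93/DictRes.lean` (same content, sub-namespace `H93.DR`): the older file
declares `H93.resHom_surjective`, a name already used by `S55/H93/GalTransport.lean`, so it must
never be imported together with the C3 files.  Import this one instead.

For a number field `k` and an embedding `τ : k →+* PadicAlgCl q`, the residue field of the
completion `k_v = ℚ_q(τ k) = H88.locField q τ` (C3 vocabulary: `H66.resCard`) is the residue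
field of the prime `H83.primeOfEmb q τ` of `𝓞 k`:

  `resCard_locField_eq : H66.resCard q (H88.locField q τ) = Nat.card (𝓞 k ⧸ H83.primeOfEmb q τ)`.

Proof: `τ(k)` is dense in `locField q τ` (`H88.semiLocalSplitStatement_holds` +
`H10.semiLocalDense`), the unit ball of `k` for `‖τ ·‖` is the localisation of `𝓞 k` at the prime
(`H83.norm_emb_le_one_iff` + Mathlib's `exists_primeCompl_mul_eq_of_integer`), so
`𝓞 k → ResidueField (intRing)` is surjective with kernel the prime.
-/
import Mathlib
import Fermat.Agent.S55.H28.Unram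
import Fermat.Agent.S55.H83.DictBasic
import Fermat.Agent.S55.H88.SemiLocalSpec
import Fermat.Agent.S55.H10.SemiLocalDense

set_option autoImplicit false

open NumberField IsDedekindDomain

noncomputable section

namespace Fermat.Agent.S55.H93.DR

variable (q : ℕ) [Fact q.Prime] {k : Type} [Field k] [NumberField k] (τ : k →+* PadicAlgCl q)

/-- `τ(k)` is dense in the completion `locField q τ`. -/
theorem exists_norm_sub_lt_of_mem_locField {y : PadicAlgCl q} (hy : y ∈ H88.locField q τ)
    {ε : ℝ} (hε : 0 < ε) : ∃ x : k, ‖y - τ x‖ < ε := by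
  obtain ⟨f, hf, -⟩ := H88.semiLocalSplitStatement_holds q k τ y hy
  obtain ⟨x, hx⟩ := H10.semiLocalDense q k f ε hε
  exact ⟨x, hf ▸ hx τ⟩

/-- An element of `k` in the unit ball of `τ` is congruent to an integer modulo the open unit
ball. -/
theorem exists_integer_norm_sub_lt (x : k) (hx : ‖τ x‖ ≤ 1) :
    ∃ a : 𝓞 k, ‖τ x - τ (algebraMap (𝓞 k) k a)‖ < 1 := by
  set P := H83.heightOneOfEmb q τ with hP
  have hv : P.valuation k x ≤ 1 := (H83.norm_emb_le_one_iff q τ x).mp hx
  obtain ⟨n, d, hnd⟩ := P.exists_primeCompl_mul_eq_of_integer x hv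
  have hmax : P.asIdeal.IsMaximal := P.isMaximal
  obtain ⟨t, i, hi, hti⟩ := hmax.exists_inv d.2
  refine ⟨t * n, ?_⟩
  have hi' : ‖τ (algebraMap (𝓞 k) k i)‖ < 1 := hi
  have e : τ x - τ (algebraMap (𝓞 k) k (t * n)) = τ x * τ (algebraMap (𝓞 k) k i) := by
    have h1 : algebraMap (𝓞 k) k (t * n) = algebraMap (𝓞 k) k t * (x * algebraMap (𝓞 k) k d) := by
      rw [map_mul, hnd]
    have h2 : algebraMap (𝓞 k) k i = 1 - algebraMap (𝓞 k) k t * algebraMap (𝓞 k) k d := by
      rw [← map_mul, ← map_one (algebraMap (𝓞 k) k), ← map_sub, ← hti]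
      congr 1
      ring
    rw [h1, h2, ← map_sub, ← map_mul]
    congr 1
    ring
  rw [e, norm_mul]
  calc ‖τ x‖ * ‖τ (algebraMap (𝓞 k) k i)‖ ≤ 1 * ‖τ (algebraMap (𝓞 k) k i)‖ :=
        mul_le_mul_of_nonneg_right hx (norm_nonneg _)
    _ < 1 := by rw [one_mul]; exact hi'

/-- The integers of `k` inside the valuation ring of the completion. -/
def intHom : 𝓞 k →+* H66.intRing q (H88.locField q τ) where
  toFun a := ⟨H88.locEmb q τ (algebraMap (𝓞 k) k a),
    (H28.mem_intRing q (H88.locField q τ)).2 (H83.norm_emb_le_one q τ a)⟩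
  map_one' := Subtype.ext (by simp)
  map_mul' a b := Subtype.ext (by simp)
  map_zero' := Subtype.ext (by simp)
  map_add' a b := Subtype.ext (by simp)

theorem coe_intHom (a : 𝓞 k) :
    algebraMap (H88.locField q τ) (PadicAlgCl q) ((intHom q τ a : H66.intRing q (H88.locField q τ)) :
      H88.locField q τ) = τ (algebraMap (𝓞 k) k a) := rfl

/-- Units of the valuation ring of an embedded field have norm one. -/
theorem isUnit_intRing_iff (F : Type) [Field F] [Algebra F (PadicAlgCl q)]
    (x : H66.intRing q F) : IsUnit x ↔ ‖algebraMap F (PadicAlgCl q) (x : F)‖ = 1 := by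
  constructor
  · rintro ⟨u, rfl⟩
    have h1 : ‖algebraMap F (PadicAlgCl q) ((u : H66.intRing q F) : F)‖ ≤ 1 :=
      (H28.mem_intRing q F).1 (u : H66.intRing q F).2
    have h2 : ‖algebraMap F (PadicAlgCl q) (((u⁻¹ : (H66.intRing q F)ˣ) : H66.intRing q F) : F)‖
        ≤ 1 := (H28.mem_intRing q F).1 ((u⁻¹ : (H66.intRing q F)ˣ) : H66.intRing q F).2
    have h3 : ((u : H66.intRing q F) : F) * (((u⁻¹ : (H66.intRing q F)ˣ) : H66.intRing q F) : F)
        = 1 := congrArg (fun z : H66.intRing q F => (z : F)) u.mul_inv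
    have h4 := congrArg (fun z : F => ‖algebraMap F (PadicAlgCl q) z‖) h3
    simp only [map_mul, norm_mul, map_one, norm_one] at h4
    nlinarith [norm_nonneg (algebraMap F (PadicAlgCl q) ((u : H66.intRing q F) : F)),
      norm_nonneg (algebraMap F (PadicAlgCl q)
        (((u⁻¹ : (H66.intRing q F)ˣ) : H66.intRing q F) : F))]
  · exact H28.isUnit_intRing_of_norm q F x

theorem residue_eq_zero_iff (F : Type) [Field F] [Algebra F (PadicAlgCl q)]
    (x : H66.intRing q F) :
    IsLocalRing.residue (H66.intRing q F) x = 0 ↔ ‖algebraMap F (PadicAlgCl q) (x : F)‖ < 1 := by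
  have hle : ‖algebraMap F (PadicAlgCl q) (x : F)‖ ≤ 1 := (H28.mem_intRing q F).1 x.2
  rw [IsLocalRing.residue_eq_zero_iff, IsLocalRing.mem_maximalIdeal, mem_nonunits_iff,
    isUnit_intRing_iff]
  exact ⟨fun h => lt_of_le_of_ne hle h, fun h => ne_of_lt h⟩

/-- Reduction of the integers of `k` into the residue field of the completion. -/
def resHom : 𝓞 k →+* IsLocalRing.ResidueField (H66.intRing q (H88.locField q τ)) :=
  (IsLocalRing.residue _).comp (intHom q τ)

theorem ker_resHom : RingHom.ker (resHom q τ) = H83.primeOfEmb q τ := by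
  ext a
  rw [RingHom.mem_ker, resHom, RingHom.comp_apply, residue_eq_zero_iff, coe_intHom,
    H83.mem_primeOfEmb]

theorem resHom_surjective : Function.Surjective (resHom q τ) := by
  intro r
  obtain ⟨y, rfl⟩ := IsLocalRing.residue_surjective r
  have hy1 : ‖((y : H88.locField q τ) : PadicAlgCl q)‖ ≤ 1 :=
    (H28.mem_intRing q (H88.locField q τ)).1 y.2
  obtain ⟨x, hx⟩ := exists_norm_sub_lt_of_mem_locField q τ (y : H88.locField q τ).2 one_pos
  have hx1 : ‖τ x‖ ≤ 1 := by
    have e : τ x = ((y : H88.locField q τ) : PadicAlgCl q) +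
        -(((y : H88.locField q τ) : PadicAlgCl q) - τ x) := by ring
    rw [e]
    refine le_trans (IsUltrametricDist.norm_add_le_max _ _) (max_le hy1 ?_)
    rw [norm_neg]
    exact hx.le
  obtain ⟨a, ha⟩ := exists_integer_norm_sub_lt q τ x hx1
  refine ⟨a, ?_⟩
  rw [resHom, RingHom.comp_apply, ← sub_eq_zero, ← map_sub, residue_eq_zero_iff]
  have e : algebraMap (H88.locField q τ) (PadicAlgCl q)
      (((intHom q τ a - y : H66.intRing q (H88.locField q τ)) : H88.locField q τ)) =
      -((((y : H88.locField q τ) : PadicAlgCl q) - τ x) + (τ x - τ (algebraMap (𝓞 k) k a))) := by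
    show τ (algebraMap (𝓞 k) k a) - ((y : H88.locField q τ) : PadicAlgCl q) = _
    ring
  rw [e, norm_neg]
  exact lt_of_le_of_lt (IsUltrametricDist.norm_add_le_max _ _) (max_lt hx ha)

/-- **(HL-a) DICT-RES**: the residue field of the completion of `k` at `τ` has the cardinality
of the residue field of the prime of `τ`. -/
theorem resCard_locField_eq :
    H66.resCard q (H88.locField q τ) = Nat.card (𝓞 k ⧸ H83.primeOfEmb q τ) := by
  have e := RingHom.quotientKerEquivOfSurjective (resHom_surjective q τ)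
  have e' := Ideal.quotEquivOfEq (ker_resHom q τ)
  exact (Nat.card_congr (e'.symm.trans e).toEquiv).symm

end Fermat.Agent.S55.H93.DR
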