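/-
Program C (S55), package C9b, leaf L2-P / (hlam), sub-leaf (DICT-VS) (helper93).

The index dictionary between the finite places of a number field `F ⊆ ℚ̄` in the embedding model
of C5 (`H88.FinPlace ↥F`: orbits of embeddings `↥F →+* PadicAlgCl q`) and the valuation subrings
of `ℚ̄` (`H11.XS S`): for a place `w` outside `S` choose an extension `jv w : ℚ̄ →+* PadicAlgCl q`
of `w.emb` and let `repV w` be its unit ball.  Every valuation subring of `ℚ̄` over a prime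
outside `S` is `Gal(ℚ̄/F)`-conjugate to exactly one `repV w` (`repV_unique`).
-/
import Mathlib
import Fermat.Agent.S55.H11.DivInst
import Fermat.Agent.S55.H56.Sat
import Fermat.Agent.S55.H63.PlacesOver
import Fermat.Agent.S55.H83.Dict

set_option autoImplicit false

open NumberField IsDedekindDomain
open scoped Pointwise

noncomputable section

namespace Fermat.Agent.S55.H93

local notation "Qb" => AlgebraicClosure ℚ
local notation "GQ" => (AlgebraicClosure ℚ ≃ₐ[ℚ] AlgebraicClosure ℚ)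

attribute [local instance] H88.factOfPrimes

/-! ### The unit ball of an embedding `ℚ̄ → PadicAlgCl q` -/

section Ball

variable {q : ℕ} [Fact q.Prime]

/-- The unit ball of an embedding of `ℚ̄` into `PadicAlgCl q`, a valuation subring of `ℚ̄`. -/
def ballOf (j : Qb →+* PadicAlgCl q) : ValuationSubring Qb where
  carrier := {x | ‖j x‖ ≤ 1}
  mul_mem' := fun {a b} ha hb => by
    show ‖j (a * b)‖ ≤ 1
    rw [map_mul, norm_mul]
    exact mul_le_one₀ ha (norm_nonneg _) hb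
  one_mem' := by
    show ‖j 1‖ ≤ 1
    rw [map_one, norm_one]
  add_mem' := fun {a b} ha hb => by
    show ‖j (a + b)‖ ≤ 1
    rw [map_add]
    exact le_trans (IsUltrametricDist.norm_add_le_max _ _) (max_le ha hb)
  zero_mem' := by
    show ‖j 0‖ ≤ 1
    rw [map_zero, norm_zero]
    exact zero_le_one
  neg_mem' := fun {a} ha => by
    show ‖j (-a)‖ ≤ 1
    rw [map_neg, norm_neg]
    exact ha
  mem_or_inv_mem' := fun a => by
    show ‖j a‖ ≤ 1 ∨ ‖j a⁻¹‖ ≤ 1
    rcases le_total ‖j a‖ 1 with h | h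
    · exact Or.inl h
    · right
      rw [map_inv₀, norm_inv]
      exact inv_le_one_of_one_le₀ h

theorem mem_ballOf {j : Qb →+* PadicAlgCl q} {x : Qb} : x ∈ ballOf j ↔ ‖j x‖ ≤ 1 := Iff.rfl

theorem mem_nonunits_ballOf {j : Qb →+* PadicAlgCl q} {x : Qb} :
    x ∈ (ballOf j).nonunits ↔ ‖j x‖ < 1 := by
  rw [ValuationSubring.mem_nonunits_iff_or]
  by_cases hx : x = 0
  · subst hx
    simp
  · have hj : j x ≠ 0 := (map_ne_zero j).mpr hx
    have hpos : 0 < ‖j x‖ := norm_pos_iff.mpr hj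
    constructor
    · rintro (h | h)
      · exact absurd h hx
      · by_contra hlt
        apply h
        show ‖j x⁻¹‖ ≤ 1
        rw [map_inv₀, norm_inv]
        exact inv_le_one_of_one_le₀ (not_lt.mp hlt)
    · intro h
      right
      intro hmem
      have h1 : ‖j x⁻¹‖ ≤ 1 := hmem
      rw [map_inv₀, norm_inv] at h1
      have h2 : 1 ≤ ‖j x‖ := (inv_le_one₀ hpos).mp h1
      exact absurd h (not_lt.mpr h2)

theorem norm_natCast_self (j : Qb →+* PadicAlgCl q) : ‖j (q : Qb)‖ = (q : ℝ)⁻¹ := by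
  rw [map_natCast]
  exact H83.norm_natCast_padicAlgCl q

theorem ballOf_liesOver (j : Qb →+* PadicAlgCl q) : (ballOf j).LiesOverPrime q := by
  show (q : Qb) ∈ (ballOf j).nonunits
  rw [mem_nonunits_ballOf, map_natCast]
  exact H83.norm_natCast_padicAlgCl_lt_one q

/-- If `x / q ^ m` is a unit of the unit ball of `j`, then `‖j x‖ = (q⁻¹) ^ m`. -/
theorem norm_eq_zpow_of_mem {j : Qb →+* PadicAlgCl q} {x : Qb} {m : ℤ} (hx : x ≠ 0)
    (h1 : x / (q : Qb) ^ m ∈ ballOf j) (h2 : (q : Qb) ^ m / x ∈ ballOf j) :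
    ‖j x‖ = ((q : ℝ)⁻¹) ^ m := by
  have hqm : (0 : ℝ) < ((q : ℝ)⁻¹) ^ m :=
    zpow_pos (inv_pos.mpr (Nat.cast_pos.mpr (Fact.out : q.Prime).pos)) m
  have e1 : ‖j (x / (q : Qb) ^ m)‖ = ‖j x‖ / ((q : ℝ)⁻¹) ^ m := by
    rw [map_div₀, map_zpow₀, norm_div, norm_zpow, norm_natCast_self]
  have e2 : ‖j ((q : Qb) ^ m / x)‖ = ((q : ℝ)⁻¹) ^ m / ‖j x‖ := by
    rw [map_div₀, map_zpow₀, norm_div, norm_zpow, norm_natCast_self]
  have h1' : ‖j x‖ / ((q : ℝ)⁻¹) ^ m ≤ 1 := e1 ▸ h1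
  have h2' : ((q : ℝ)⁻¹) ^ m / ‖j x‖ ≤ 1 := e2 ▸ h2
  have hx0 : 0 < ‖j x‖ := norm_pos_iff.mpr ((map_ne_zero j).mpr hx)
  exact le_antisymm ((div_le_one hqm).mp h1') ((div_le_one hx0).mp h2')

/-- Conversely, `‖j x‖ = (q⁻¹) ^ m` makes `x / q ^ m` a unit of the unit ball of `j`. -/
theorem mem_of_norm_eq_zpow {j : Qb →+* PadicAlgCl q} {x : Qb} {m : ℤ}
    (h : ‖j x‖ = ((q : ℝ)⁻¹) ^ m) :
    x / (q : Qb) ^ m ∈ ballOf j ∧ (q : Qb) ^ m / x ∈ ballOf j := by
  have hqm : (0 : ℝ) < ((q : ℝ)⁻¹) ^ m :=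
    zpow_pos (inv_pos.mpr (Nat.cast_pos.mpr (Fact.out : q.Prime).pos)) m
  constructor
  · show ‖j (x / (q : Qb) ^ m)‖ ≤ 1
    rw [map_div₀, map_zpow₀, norm_div, norm_zpow, norm_natCast_self, h, div_self hqm.ne']
  · show ‖j ((q : Qb) ^ m / x)‖ ≤ 1
    rw [map_div₀, map_zpow₀, norm_div, norm_zpow, norm_natCast_self, h, div_self hqm.ne']

theorem zpow_inv_natCast_injective :
    Function.Injective fun m : ℤ => ((q : ℝ)⁻¹) ^ m := by
  have hq1 : (1 : ℝ) < (q : ℝ) := by exact_mod_cast (Fact.out : q.Prime).one_lt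
  have h0 : (0 : ℝ) < (q : ℝ)⁻¹ := inv_pos.mpr (lt_trans zero_lt_one hq1)
  have h1 : ((q : ℝ)⁻¹) ≠ 1 := (inv_lt_one_of_one_lt₀ hq1).ne
  exact zpow_right_injective₀ h0 h1

end Ball

/-! ### The representatives -/

section Rep

variable (S : Finset Nat.Primes) (F : IntermediateField ℚ Qb) [NumberField ↥F]

/-- A chosen extension to `ℚ̄` of the chosen embedding of a finite place of `F`. -/
def jv (w : H88.FinPlace ↥F) : Qb →+* PadicAlgCl (w.1 : ℕ) :=
  Classical.choose (H88.exists_extend (w.1 : ℕ) (K := Qb) w.emb)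

omit [NumberField ↥F] in
theorem jv_comp (w : H88.FinPlace ↥F) : (jv F w).comp (algebraMap ↥F Qb) = w.emb :=
  Classical.choose_spec (H88.exists_extend (w.1 : ℕ) (K := Qb) w.emb)

omit [NumberField ↥F] in
theorem jv_coe (w : H88.FinPlace ↥F) (a : ↥F) : jv F w (a : Qb) = w.emb a :=
  RingHom.congr_fun (jv_comp F w) a

/-- The centre on `F` of the unit ball of an embedding of `ℚ̄` is the prime of its restriction
to `F`. -/
theorem centerInt_ballOf {q : ℕ} [Fact q.Prime] (j : Qb →+* PadicAlgCl q) :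
    H56.centerInt F (ballOf j) = H83.primeOfEmb q (j.comp (algebraMap ↥F Qb)) := by
  ext a
  rw [H56.mem_centerInt_iff, mem_nonunits_ballOf, H83.mem_primeOfEmb]
  rfl

theorem centerInt_ballOf_jv (w : H88.FinPlace ↥F) :
    H56.centerInt F (ballOf (jv F w)) = (H83.heightOneOfEmb (w.1 : ℕ) w.emb).asIdeal := by
  rw [centerInt_ballOf, jv_comp]
  rfl

omit [NumberField ↥F] in
/-- Translating by an element of `Gal(ℚ̄/F)` does not change the centre on `F`. -/
theorem centerInt_smul (A : ValuationSubring Qb) (σ : GQ) (hσ : σ ∈ F.fixingSubgroup) :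
    H56.centerInt F (σ • A) = H56.centerInt F A := by
  have key : ∀ (B : ValuationSubring Qb) (τ : GQ), τ ∈ F.fixingSubgroup →
      H56.centerInt F B ≤ H56.centerInt F (τ • B) := by
    intro B τ hτ a ha
    rw [H56.mem_centerInt_iff] at ha ⊢
    have h1 := H43.apply_mem_nonunits_smul B τ ha
    have h2 : τ ((a : ↥F) : Qb) = ((a : ↥F) : Qb) :=
      (IntermediateField.mem_fixingSubgroup_iff F τ).mp hτ _ (a : ↥F).2
    rwa [h2] at h1
  refine le_antisymm ?_ (key A σ hσ)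
  have h := key (σ • A) σ⁻¹ (inv_mem hσ)
  rwa [inv_smul_smul] at h

/-- The representative valuation subring of a finite place of `F` outside `S`: the unit ball
of the chosen extension of its embedding. -/
def repV : {w : H88.FinPlace ↥F // w ∉ H63.placesOver ↥F S} → H11.XS S := fun w =>
  ⟨ballOf (jv F w.1), w.1.1, (H63.not_mem_placesOver ↥F).1 w.2, ballOf_liesOver _⟩

theorem repV_val (w : {w : H88.FinPlace ↥F // w ∉ H63.placesOver ↥F S}) :
    (repV S F w).1 = ballOf (jv F w.1) := rfl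

theorem repV_prime (w : {w : H88.FinPlace ↥F // w ∉ H63.placesOver ↥F S}) :
    ((repV S F w).prime : ℕ) = (w.1.1 : ℕ) :=
  (repV S F w).prime_eq w.1.1.2 (ballOf_liesOver _)

/-- **(DICT-VS)**: every valuation subring of `ℚ̄` over a prime outside `S` is conjugate under
`Gal(ℚ̄/F)` to the representative of exactly one finite place of `F` outside `S`. -/
theorem repV_unique (x : H11.XS S) :
    ∃! w : {w : H88.FinPlace ↥F // w ∉ H63.placesOver ↥F S},
      ∃ g : ↥F.fixingSubgroup, g • repV S F w = x := by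
  obtain ⟨A, q, hqS, hA⟩ := x
  let P : HeightOneSpectrum (𝓞 ↥F) :=
    ⟨H56.centerInt F A, inferInstance, H56.centerInt_ne_bot F q.2 hA⟩
  have hqP : (((q : ℕ) : ℕ) : 𝓞 ↥F) ∈ P.asIdeal := H56.natCast_mem_centerInt F hA
  obtain ⟨τ, hτ⟩ := H83.exists_emb_heightOneOfEmb_eq (q : ℕ) P hqP
  let w0 : H88.FinPlace ↥F := ⟨q, H88.placeOf (q : ℕ) τ⟩
  have hw0 : w0 ∉ H63.placesOver ↥F S := (H63.not_mem_placesOver ↥F).2 hqS
  have h1 : H83.heightOneOfEmb (w0.1 : ℕ) w0.emb = P :=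
    (H83.dictFun_eq w0).symm.trans ((H83.dictFun_mk q τ).trans hτ)
  have h2 : H56.centerInt F (ballOf (jv F w0)) = H56.centerInt F A := by
    rw [centerInt_ballOf_jv, h1]
  obtain ⟨σ, hσF, hσ⟩ := H56.exists_smul_eq_of_centerInt_eq F _ _ h2
  refine ⟨⟨w0, hw0⟩, ⟨⟨σ, hσF⟩, Subtype.ext hσ⟩, ?_⟩
  rintro ⟨w', hw'⟩ ⟨g, hg⟩
  apply Subtype.ext
  show w' = w0
  apply (H83.dictEquiv ↥F).injective
  rw [H83.dictEquiv_apply, H83.dictEquiv_apply]
  apply HeightOneSpectrum.ext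
  rw [← centerInt_ballOf_jv, ← centerInt_ballOf_jv, h2]
  have hg' : (g : GQ) • ballOf (jv F w') = A := congrArg Subtype.val hg
  rw [← hg', centerInt_smul F _ _ g.2]

/-! ### (H4): the order at `repV w` is the `q`-adic norm along `jv w` -/

/-- **(H4)**: `‖jv w (y)‖ = (q⁻¹) ^ ordQ y (repV w)` for `y ∈ ℚ_S^×`. -/
theorem norm_jv_val (y : H42.QSx S) (w : {w : H88.FinPlace ↥F // w ∉ H63.placesOver ↥F S}) :
    ‖jv F w.1 ((H42.unitsRep.val y : Qbˣ) : Qb)‖ =
      (((w.1.1 : ℕ) : ℝ)⁻¹) ^ (H11.ordQ y (repV S F w)) := by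
  have h := H11.ordQ_spec y (repV S F w)
  rw [repV_prime] at h
  exact norm_eq_zpow_of_mem (Units.ne_zero _) h.1 h.2

theorem ordQ_repV_iff (y : H42.QSx S) (w : {w : H88.FinPlace ↥F // w ∉ H63.placesOver ↥F S})
    (m : ℤ) :
    H11.ordQ y (repV S F w) = m ↔
      ‖jv F w.1 ((H42.unitsRep.val y : Qbˣ) : Qb)‖ = (((w.1.1 : ℕ) : ℝ)⁻¹) ^ m := by
  rw [norm_jv_val]
  exact ⟨fun h => by rw [h], fun h => zpow_inv_natCast_injective h⟩

end Rep

end Fermat.Agent.S55.H93
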