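/-
Program C (S55), package C9b, leaf L2-P (helper93): the ABSTRACT CORE.  Mathlib only.

`Γ` a group acting on a set `X`; cochains with values in functions `X → T`, the action being
`(g • f) x = f (g⁻¹ • x)`, are written curried: a 1-cochain is `c : Γ → X → T`, a 2-cochain is
`c : Γ → Γ → X → T`.

* `exists_primitive` : a 1-cocycle `c` with `c d x = 0` for all `d` in the stabiliser of `x`
  is a coboundary, `c g x = b (g⁻¹ • x) - b x`.
* `exists_primitive_int` : for `T = ℤ` and `c` trivial on a subgroup of finite index the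
  stabiliser condition is automatic.
* `avg_cocycle` … `exists_primitive₂` : a `ℤ`-valued 2-cocycle `c` of level `U` (normal of finite
  index `n`) has `n • c = d S` with `S g = ∑_{h ∈ Γ/U} c g h`; if `n ∣ S d x` for all `d` in the
  stabiliser of `x` (all `x`), then `c = d β` with `β` of level `U`.
* `avgChar_*` : `d ↦ S d x mod n` is a character of the stabiliser of `x`, trivial on `U`,
  compatible with conjugation.
-/
import Mathlib

set_option autoImplicit false

namespace Fermat.Agent.S55.H93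

open scoped Pointwise

section FUN1

variable {Γ X T : Type*} [Group Γ] [MulAction Γ X] [AddCommGroup T]

/-- **[FUN1]**  A 1-cocycle with values in `X → T` which vanishes at `x` on the stabiliser of `x`
(for every `x`) is a coboundary. -/
theorem exists_primitive (c : Γ → X → T)
    (hc : ∀ g h x, c (g * h) x = c g x + c h (g⁻¹ • x))
    (hstab : ∀ x, ∀ d : Γ, d • x = x → c d x = 0) :
    ∃ b : X → T, (∀ g x, c g x = b (g⁻¹ • x) - b x) ∧ (∀ x, b x ≠ 0 → ∃ g, c g x ≠ 0) := by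
  classical
  let r : X → X := fun x => (Quotient.mk (MulAction.orbitRel Γ X) x).out
  have hr : ∀ x, ∃ g : Γ, g • r x = x := by
    intro x
    have h1 : (MulAction.orbitRel Γ X).r (r x) x := Quotient.exact (Quotient.out_eq _)
    obtain ⟨g, hg⟩ := h1
    refine ⟨g⁻¹, ?_⟩
    rw [← hg, inv_smul_smul]
  choose γ hγ using hr
  have hrr : ∀ (g : Γ) (x : X), r (g • x) = r x := by
    intro g x
    have h1 : Quotient.mk (MulAction.orbitRel Γ X) (g • x) =
        Quotient.mk (MulAction.orbitRel Γ X) x := Quotient.sound ⟨g, rfl⟩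
    change (Quotient.mk (MulAction.orbitRel Γ X) (g • x)).out = _
    rw [h1]
  have key : ∀ (x : X) (g : Γ), g • r x = x → c g x = c (γ x) x := by
    intro x g hg
    have hd : ((γ x)⁻¹ * g) • r x = r x := by
      rw [mul_smul, hg, inv_smul_eq_iff, hγ x]
    have h1 : g = γ x * ((γ x)⁻¹ * g) := by group
    have h2 : (γ x)⁻¹ • x = r x := by rw [inv_smul_eq_iff, hγ x]
    have h3 := hc (γ x) ((γ x)⁻¹ * g) x
    rw [← h1, h2, hstab _ _ hd, add_zero] at h3
    exact h3
  refine ⟨fun x => - c (γ x) x, ?_, ?_⟩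
  · intro g x
    have hy : r (g⁻¹ • x) = r x := hrr g⁻¹ x
    have h1 : (g * γ (g⁻¹ • x)) • r x = x := by
      rw [mul_smul, ← hy, hγ (g⁻¹ • x), smul_inv_smul]
    have h2 := key x _ h1
    rw [hc] at h2
    change c g x = - c (γ (g⁻¹ • x)) (g⁻¹ • x) - - c (γ x) x
    rw [← h2]; abel
  · intro x hx
    refine ⟨γ x, ?_⟩
    intro h0
    apply hx
    simp only [h0, neg_zero]

/-- If the cocycle is trivial on `U`, the primitive is `U`-invariant. -/
theorem primitive_invariant (c : Γ → X → T) (b : X → T)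
    (hb : ∀ g x, c g x = b (g⁻¹ • x) - b x) (u : Γ) (hu : ∀ x, c u x = 0) (x : X) :
    b (u • x) = b x := by
  have h := hb u (u • x)
  rw [hu, inv_smul_smul] at h
  exact (sub_eq_zero.1 h.symm).symm

theorem cocycle_one (c : Γ → X → T)
    (hc : ∀ g h x, c (g * h) x = c g x + c h (g⁻¹ • x)) (x : X) : c 1 x = 0 := by
  have h := hc 1 1 x
  rw [mul_one, inv_one, one_smul] at h
  exact left_eq_add.1 h

/-- On the stabiliser of `x`, `d ↦ c d x` is additive. -/
theorem cocycle_stab_mul (c : Γ → X → T)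
    (hc : ∀ g h x, c (g * h) x = c g x + c h (g⁻¹ • x)) (x : X) (d d' : Γ) (hd : d • x = x) :
    c (d * d') x = c d x + c d' x := by
  rw [hc, inv_smul_eq_iff.2 hd.symm]

theorem cocycle_stab_pow (c : Γ → X → T)
    (hc : ∀ g h x, c (g * h) x = c g x + c h (g⁻¹ • x)) (x : X) (d : Γ) (hd : d • x = x)
    (k : ℕ) : c (d ^ k) x = k • c d x := by
  induction k with
  | zero => rw [pow_zero, zero_smul]; exact cocycle_one c hc x
  | succ k ih => rw [pow_succ', cocycle_stab_mul c hc x d (d ^ k) hd, ih, succ_nsmul']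

/-- Conjugation invariance of the restriction of a 1-cocycle to stabilisers. -/
theorem cocycle_conj (c : Γ → X → T)
    (hc : ∀ g h x, c (g * h) x = c g x + c h (g⁻¹ • x)) (x : X) (g d : Γ) (hd : d • x = x) :
    c (g * d * g⁻¹) (g • x) = c d x := by
  have h1 := hc (g * d) g⁻¹ (g • x)
  have h2 := hc g d (g • x)
  have h3 := hc g g⁻¹ (g • x)
  rw [mul_inv_cancel, cocycle_one c hc, inv_smul_smul] at h3
  have h4 : (g * d)⁻¹ • g • x = x := by
    rw [inv_smul_eq_iff, mul_smul, hd]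
  rw [h4] at h1
  rw [inv_smul_smul] at h2
  rw [h1, h2]
  have h5 : c g⁻¹ x = - c g (g • x) := by
    rw [eq_neg_iff_add_eq_zero, add_comm]; exact h3.symm
  rw [h5]; abel

end FUN1

section Core1

variable {Γ X : Type*} [Group Γ] [MulAction Γ X]

/-- A `ℤ`-valued 1-cocycle which is trivial on a subgroup of finite index vanishes at `x` on the
stabiliser of `x`. -/
theorem stab_eq_zero_of_level (c : Γ → X → ℤ)
    (hc : ∀ g h x, c (g * h) x = c g x + c h (g⁻¹ • x))
    (U : Subgroup Γ) (hU : U.index ≠ 0) (hcU : ∀ u ∈ U, ∀ x, c u x = 0)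
    (x : X) (d : Γ) (hd : d • x = x) : c d x = 0 := by
  obtain ⟨k, hk, -, hmem⟩ := Subgroup.exists_pow_mem_of_index_ne_zero hU d
  have h1 := cocycle_stab_pow c hc x d hd k
  rw [hcU _ hmem x] at h1
  have h2 : (k : ℤ) * c d x = 0 := by rw [← nsmul_eq_mul]; exact h1.symm
  rcases mul_eq_zero.1 h2 with h3 | h3
  · exact absurd (by exact_mod_cast h3) hk.ne'
  · exact h3

/-- **Core-1 (for (Pa)).**  A `ℤ`-valued 1-cocycle in functions on `X`, trivial on a subgroup `U`
of finite index, is the coboundary of a `U`-invariant function with controlled support. -/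
theorem exists_primitive_int (c : Γ → X → ℤ)
    (hc : ∀ g h x, c (g * h) x = c g x + c h (g⁻¹ • x))
    (U : Subgroup Γ) (hU : U.index ≠ 0) (hcU : ∀ u ∈ U, ∀ x, c u x = 0) :
    ∃ b : X → ℤ, (∀ g x, c g x = b (g⁻¹ • x) - b x) ∧ (∀ x, b x ≠ 0 → ∃ g, c g x ≠ 0) ∧
      (∀ u ∈ U, ∀ x, b (u • x) = b x) := by
  obtain ⟨b, hb1, hb2⟩ := exists_primitive c hc (stab_eq_zero_of_level c hc U hU hcU)
  exact ⟨b, hb1, hb2, fun u hu x => primitive_invariant c b hb1 u (hcU u hu) x⟩

end Core1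

section Core2

variable {Γ X : Type*} [Group Γ] [MulAction Γ X] (U : Subgroup Γ) [Fintype (Γ ⧸ U)]

/-- Reindexing a sum over coset representatives by a left translation. -/
theorem sum_out_mul (F : Γ → ℤ) (hF : ∀ a, ∀ u ∈ U, F (a * u) = F a) (h : Γ) :
    ∑ q : Γ ⧸ U, F (h * q.out) = ∑ q : Γ ⧸ U, F q.out := by
  have h1 : ∀ q : Γ ⧸ U, F (h * q.out) = F ((h • q : Γ ⧸ U)).out := by
    intro q
    have h2 : (QuotientGroup.mk (h * q.out) : Γ ⧸ U) = QuotientGroup.mk ((h • q : Γ ⧸ U)).out := by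
      rw [QuotientGroup.out_eq']
      conv_rhs => rw [← QuotientGroup.out_eq' q]
      rfl
    have h3 : (h * q.out)⁻¹ * ((h • q : Γ ⧸ U)).out ∈ U := QuotientGroup.eq.1 h2
    have h4 := hF (h * q.out) _ h3
    rw [mul_inv_cancel_left] at h4
    exact h4.symm
  rw [Finset.sum_congr rfl (fun q _ => h1 q)]
  exact Equiv.sum_comp (MulAction.toPerm h : Equiv.Perm (Γ ⧸ U)) (fun q => F q.out)

/-- The average of a 2-cochain over the second variable. -/
noncomputable def avg (c : Γ → Γ → X → ℤ) (g : Γ) (x : X) : ℤ := ∑ q : Γ ⧸ U, c g q.out x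

/-- **Averaging**: `n • c = d (avg c)`. -/
theorem avg_cocycle (c : Γ → Γ → X → ℤ)
    (hc : ∀ g h k x, c h k (g⁻¹ • x) - c (g * h) k x + c g (h * k) x - c g h x = 0)
    (hr : ∀ g h, ∀ u ∈ U, c g (h * u) = c g h) (g h : Γ) (x : X) :
    (Fintype.card (Γ ⧸ U) : ℤ) * c g h x = avg U c h (g⁻¹ • x) - avg U c (g * h) x + avg U c g x := by
  have h1 : ∑ q : Γ ⧸ U, (c h q.out (g⁻¹ • x) - c (g * h) q.out x + c g (h * q.out) x - c g h x)
      = 0 := Finset.sum_eq_zero (fun q _ => hc g h q.out x)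
  have h2 : ∑ q : Γ ⧸ U, c g (h * q.out) x = avg U c g x :=
    sum_out_mul U (fun a => c g a x) (fun a u hu => by rw [hr g a u hu]) h
  simp only [Finset.sum_add_distrib, Finset.sum_sub_distrib, Finset.sum_const, Finset.card_univ,
    nsmul_eq_mul] at h1
  rw [h2] at h1
  have h1' : avg U c h (g⁻¹ • x) - avg U c (g * h) x + avg U c g x -
      (Fintype.card (Γ ⧸ U) : ℤ) * c g h x = 0 := h1
  linarith

/-- The averaged cochain is a 1-cocycle modulo `n = (Γ : U)`. -/
theorem avg_mod_cocycle (c : Γ → Γ → X → ℤ)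
    (hc : ∀ g h k x, c h k (g⁻¹ • x) - c (g * h) k x + c g (h * k) x - c g h x = 0)
    (hr : ∀ g h, ∀ u ∈ U, c g (h * u) = c g h) (g h : Γ) (x : X) :
    ((avg U c (g * h) x : ℤ) : ZMod (Fintype.card (Γ ⧸ U))) =
      (avg U c g x : ZMod (Fintype.card (Γ ⧸ U))) + (avg U c h (g⁻¹ • x) : ℤ) := by
  have h1 := congrArg (fun z : ℤ => (z : ZMod (Fintype.card (Γ ⧸ U)))) (avg_cocycle U c hc hr g h x)
  simp only [Int.cast_mul, Int.cast_natCast, ZMod.natCast_self, zero_mul, Int.cast_add,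
    Int.cast_sub] at h1
  linear_combination h1

/-- A 2-cocycle is constant in the second variable when the first is `1`. -/
theorem cocycle₂_one (c : Γ → Γ → X → ℤ)
    (hc : ∀ g h k x, c h k (g⁻¹ • x) - c (g * h) k x + c g (h * k) x - c g h x = 0)
    (k : Γ) (x : X) : c 1 k x = c 1 1 x := by
  have h := hc 1 1 k x
  rw [inv_one, one_smul, one_mul, one_mul] at h
  linarith

/-- The averaged cochain vanishes modulo `n` on `U`. -/
theorem avg_mod_level (c : Γ → Γ → X → ℤ)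
    (hc : ∀ g h k x, c h k (g⁻¹ • x) - c (g * h) k x + c g (h * k) x - c g h x = 0)
    (hl : ∀ g h, ∀ u ∈ U, c (g * u) h = c g h) (u : Γ) (hu : u ∈ U) (x : X) :
    ((avg U c u x : ℤ) : ZMod (Fintype.card (Γ ⧸ U))) = 0 := by
  have h1 : ∀ q : Γ ⧸ U, c u q.out x = c 1 1 x := by
    intro q
    have h2 := hl 1 q.out u hu
    rw [one_mul] at h2
    rw [h2, cocycle₂_one c hc]
  unfold avg
  rw [Finset.sum_congr rfl (fun q _ => h1 q), Finset.sum_const, Finset.card_univ, nsmul_eq_mul]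
  simp

/-- **Core-2 (for (Pb)).**  A `ℤ`-valued 2-cocycle of level `U` in functions on `X` whose averaged
cochain vanishes modulo `n = (Γ : U)` at `x` on the stabiliser of `x` (for every `x`) is the
coboundary of a 1-cochain of level `U` with controlled support. -/
theorem exists_primitive₂ (c : Γ → Γ → X → ℤ)
    (hc : ∀ g h k x, c h k (g⁻¹ • x) - c (g * h) k x + c g (h * k) x - c g h x = 0)
    (hr : ∀ g h, ∀ u ∈ U, c g (h * u) = c g h)
    (hl : ∀ g h, ∀ u ∈ U, c (g * u) h = c g h)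
    (hH : ∀ x, ∀ d : Γ, d • x = x → ((avg U c d x : ℤ) : ZMod (Fintype.card (Γ ⧸ U))) = 0) :
    ∃ β : Γ → X → ℤ,
      (∀ g h x, c g h x = β h (g⁻¹ • x) - β (g * h) x + β g x) ∧
      (∀ g, ∀ u ∈ U, ∀ x, β (g * u) x = β g x) ∧
      (∀ g x, β g x ≠ 0 → (∃ g' h', c g' h' x ≠ 0) ∨ (∃ g' h', c g' h' (g⁻¹ • x) ≠ 0)) ∧
      ((∀ g h, ∀ u ∈ U, ∀ x, c g h (u • x) = c g h x) → U.Normal →
        ∀ g, ∀ u ∈ U, ∀ x, β g (u • x) = β g x) := by
  classical
  set n : ℕ := Fintype.card (Γ ⧸ U) with hn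
  have hn0 : n ≠ 0 := Fintype.card_ne_zero
  have : NeZero n := ⟨hn0⟩
  have hnZ : (n : ℤ) ≠ 0 := by exact_mod_cast hn0
  obtain ⟨bb, hbb1, hbb2⟩ := exists_primitive (T := ZMod n)
    (fun g x => ((avg U c g x : ℤ) : ZMod n)) (fun g h x => avg_mod_cocycle U c hc hr g h x) hH
  have hbbU : ∀ u ∈ U, ∀ x, bb (u • x) = bb x := fun u hu x =>
    primitive_invariant _ bb hbb1 u (fun y => avg_mod_level U c hc hl u hu y) x
  let bt : X → ℤ := fun x => ((bb x).val : ℤ)
  have hbt : ∀ x, ((bt x : ℤ) : ZMod n) = bb x := by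
    intro x
    simp only [bt, Int.cast_natCast, ZMod.natCast_zmod_val]
  have hbtU : ∀ u ∈ U, ∀ x, bt (u • x) = bt x := by
    intro u hu x
    simp only [bt, hbbU u hu x]
  have hbt0 : ∀ x, bt x ≠ 0 → ∃ g' h', c g' h' x ≠ 0 := by
    intro x hx
    have h1 : bb x ≠ 0 := by
      intro h0
      apply hx
      simp only [bt, h0, ZMod.val_zero, Nat.cast_zero]
    obtain ⟨g', hg'⟩ := hbb2 x h1
    have h2 : avg U c g' x ≠ 0 := by
      intro h0
      apply hg'
      simp only [h0, Int.cast_zero]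
    obtain ⟨q, -, hq⟩ := Finset.exists_ne_zero_of_sum_ne_zero h2
    exact ⟨g', q.out, hq⟩
  have hdvd : ∀ g x, (n : ℤ) ∣ avg U c g x - bt (g⁻¹ • x) + bt x := by
    intro g x
    rw [← ZMod.intCast_zmod_eq_zero_iff_dvd]
    push_cast
    rw [hbt, hbt, hbb1 g x]
    ring
  let β : Γ → X → ℤ := fun g x => (avg U c g x - bt (g⁻¹ • x) + bt x) / n
  have hβ : ∀ g x, (n : ℤ) * β g x = avg U c g x - bt (g⁻¹ • x) + bt x :=
    fun g x => Int.mul_ediv_cancel' (hdvd g x)
  refine ⟨β, ?_, ?_, ?_, ?_⟩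
  · intro g h x
    apply mul_left_cancel₀ hnZ
    rw [mul_add, mul_sub, hβ, hβ, hβ, avg_cocycle U c hc hr g h x, mul_inv_rev, mul_smul]
    ring
  · intro g u hu x
    apply mul_left_cancel₀ hnZ
    rw [hβ, hβ, mul_inv_rev, mul_smul, hbtU u⁻¹ (U.inv_mem hu)]
    have h1 : avg U c (g * u) x = avg U c g x := by
      unfold avg
      exact Finset.sum_congr rfl (fun q _ => by rw [hl g q.out u hu])
    rw [h1]
  · intro g x hx
    have h1 : avg U c g x - bt (g⁻¹ • x) + bt x ≠ 0 := by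
      intro h0
      apply hx
      change (avg U c g x - bt (g⁻¹ • x) + bt x) / (n : ℤ) = 0
      rw [h0, Int.zero_ediv]
    by_cases h2 : bt x = 0
    · by_cases h3 : bt (g⁻¹ • x) = 0
      · have h4 : avg U c g x ≠ 0 := by
          intro h0
          apply h1
          rw [h0, h2, h3]; ring
        obtain ⟨q, -, hq⟩ := Finset.exists_ne_zero_of_sum_ne_zero h4
        exact Or.inl ⟨g, q.out, hq⟩
      · exact Or.inr (hbt0 _ h3)
    · exact Or.inl (hbt0 _ h2)
  · intro hv hN g u hu x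
    apply mul_left_cancel₀ hnZ
    rw [hβ, hβ, hbtU u hu]
    have h1 : avg U c g (u • x) = avg U c g x := by
      unfold avg
      exact Finset.sum_congr rfl (fun q _ => hv g q.out u hu x)
    have h2 : g⁻¹ • u • x = (g⁻¹ * u * g) • g⁻¹ • x := by
      rw [smul_smul, smul_smul]
      congr 1
      group
    rw [h1, h2, hbtU _ (hN.conj_mem' u hu g)]

/-- Generator criterion for the hypothesis of `exists_primitive₂`: it suffices to test one element
`φ` of the stabiliser of `x` generating it modulo `U`. -/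
theorem avg_stab_eq_zero_of_generator (c : Γ → Γ → X → ℤ)
    (hc : ∀ g h k x, c h k (g⁻¹ • x) - c (g * h) k x + c g (h * k) x - c g h x = 0)
    (hr : ∀ g h, ∀ u ∈ U, c g (h * u) = c g h)
    (hl : ∀ g h, ∀ u ∈ U, c (g * u) h = c g h)
    (x : X) (φ : Γ) (hφ : φ • x = x)
    (hφ0 : ((avg U c φ x : ℤ) : ZMod (Fintype.card (Γ ⧸ U))) = 0)
    (k : ℕ) (u : Γ) (hu : u ∈ U) :
    ((avg U c (φ ^ k * u) x : ℤ) : ZMod (Fintype.card (Γ ⧸ U))) = 0 := by
  have hk : (φ ^ k) • x = x := by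
    induction k with
    | zero => rw [pow_zero, one_smul]
    | succ k ih => rw [pow_succ, mul_smul, hφ, ih]
  have h1 := cocycle_stab_mul (T := ZMod (Fintype.card (Γ ⧸ U)))
    (fun g x => ((avg U c g x : ℤ) : ZMod (Fintype.card (Γ ⧸ U))))
    (fun g h x => avg_mod_cocycle U c hc hr g h x) x (φ ^ k) u hk
  have h2 := cocycle_stab_pow (T := ZMod (Fintype.card (Γ ⧸ U)))
    (fun g x => ((avg U c g x : ℤ) : ZMod (Fintype.card (Γ ⧸ U))))
    (fun g h x => avg_mod_cocycle U c hc hr g h x) x φ hφ k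
  exact h1.trans (by rw [h2, hφ0, smul_zero, zero_add]; exact avg_mod_level U c hc hl u hu x)

/-- Conjugation invariance of the averaged character. -/
theorem avg_mod_conj (c : Γ → Γ → X → ℤ)
    (hc : ∀ g h k x, c h k (g⁻¹ • x) - c (g * h) k x + c g (h * k) x - c g h x = 0)
    (hr : ∀ g h, ∀ u ∈ U, c g (h * u) = c g h) (x : X) (g d : Γ) (hd : d • x = x) :
    ((avg U c (g * d * g⁻¹) (g • x) : ℤ) : ZMod (Fintype.card (Γ ⧸ U))) =
      ((avg U c d x : ℤ) : ZMod (Fintype.card (Γ ⧸ U))) :=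
  cocycle_conj (T := ZMod (Fintype.card (Γ ⧸ U)))
    (fun g x => ((avg U c g x : ℤ) : ZMod (Fintype.card (Γ ⧸ U))))
    (fun g h x => avg_mod_cocycle U c hc hr g h x) x g d hd

/-- The average of a coboundary `d β₀` (with `β₀` of level `U`) at a point of the stabiliser. -/
theorem avg_coboundary (β₀ : Γ → X → ℤ) (hβ₀ : ∀ g, ∀ u ∈ U, β₀ (g * u) = β₀ g)
    (x : X) (d : Γ) (hd : d • x = x) :
    avg U (fun g h x => β₀ h (g⁻¹ • x) - β₀ (g * h) x + β₀ g x) d x =
      (Fintype.card (Γ ⧸ U) : ℤ) * β₀ d x := by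
  unfold avg
  have h1 : ∑ q : Γ ⧸ U, β₀ (d * q.out) x = ∑ q : Γ ⧸ U, β₀ q.out x :=
    sum_out_mul U (fun a => β₀ a x) (fun a u hu => by rw [hβ₀ a u hu]) d
  rw [Finset.sum_add_distrib, Finset.sum_sub_distrib, h1, inv_smul_eq_iff.2 hd.symm,
    Finset.sum_const, Finset.card_univ, nsmul_eq_mul]
  ring

omit [MulAction Γ X] in
theorem avg_add (c₁ c₂ : Γ → Γ → X → ℤ) (g : Γ) (x : X) :
    avg U (fun g h x => c₁ g h x + c₂ g h x) g x = avg U c₁ g x + avg U c₂ g x := by
  unfold avg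
  rw [Finset.sum_add_distrib]

end Core2

section Level

variable {Γ : Type*} [Group Γ]

/-- Reindexing a sum over coset representatives of a NORMAL subgroup by a right translation. -/
theorem sum_out_mul_right (U : Subgroup Γ) [U.Normal] [Fintype (Γ ⧸ U)] (F : Γ → ℤ)
    (hF : ∀ a, ∀ u ∈ U, F (a * u) = F a) (k : Γ) :
    ∑ q : Γ ⧸ U, F (q.out * k) = ∑ q : Γ ⧸ U, F q.out := by
  have h1 : ∀ q : Γ ⧸ U, F (q.out * k) = F ((q * (QuotientGroup.mk k : Γ ⧸ U))).out := by
    intro q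
    have h2 : (QuotientGroup.mk (q.out * k) : Γ ⧸ U) =
        QuotientGroup.mk ((q * (QuotientGroup.mk k : Γ ⧸ U))).out := by
      rw [QuotientGroup.out_eq', QuotientGroup.mk_mul, QuotientGroup.out_eq']
    have h3 : (q.out * k)⁻¹ * ((q * (QuotientGroup.mk k : Γ ⧸ U))).out ∈ U := QuotientGroup.eq.1 h2
    have h4 := hF (q.out * k) _ h3
    rw [mul_inv_cancel_left] at h4
    exact h4.symm
  rw [Finset.sum_congr rfl (fun q _ => h1 q)]
  exact Equiv.sum_comp (Equiv.mulRight (QuotientGroup.mk k : Γ ⧸ U)) (fun q => F q.out)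

/-- **Change of level** for sums over coset representatives: `U' ≤ U`, `U'` normal. -/
theorem card_mul_sum_out (U' U : Subgroup Γ) [U'.Normal] [Fintype (Γ ⧸ U')] [Fintype (Γ ⧸ U)]
    (hle : U' ≤ U) (F : Γ → ℤ) (hF : ∀ a, ∀ u ∈ U, F (a * u) = F a) :
    (Fintype.card (Γ ⧸ U) : ℤ) * ∑ q' : Γ ⧸ U', F q'.out =
      (Fintype.card (Γ ⧸ U') : ℤ) * ∑ q : Γ ⧸ U, F q.out := by
  have h1 : ∑ q : Γ ⧸ U, ∑ q' : Γ ⧸ U', F (q'.out * q.out) =
      (Fintype.card (Γ ⧸ U) : ℤ) * ∑ q' : Γ ⧸ U', F q'.out := by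
    rw [Finset.sum_congr rfl (fun q _ => sum_out_mul_right U' F
      (fun a u hu => hF a u (hle hu)) q.out), Finset.sum_const, Finset.card_univ, nsmul_eq_mul]
  have h2 : ∑ q' : Γ ⧸ U', ∑ q : Γ ⧸ U, F (q'.out * q.out) =
      (Fintype.card (Γ ⧸ U') : ℤ) * ∑ q : Γ ⧸ U, F q.out := by
    rw [Finset.sum_congr rfl (fun q' _ => sum_out_mul U F hF q'.out), Finset.sum_const,
      Finset.card_univ, nsmul_eq_mul]
  rw [← h1, ← h2, Finset.sum_comm]

/-- **Change of level** for the averaged cochain. -/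
theorem card_mul_avg {X : Type*} [MulAction Γ X] (U' U : Subgroup Γ) [U'.Normal]
    [Fintype (Γ ⧸ U')] [Fintype (Γ ⧸ U)] (hle : U' ≤ U) (c : Γ → Γ → X → ℤ)
    (hr : ∀ g h, ∀ u ∈ U, c g (h * u) = c g h) (g : Γ) (x : X) :
    (Fintype.card (Γ ⧸ U) : ℤ) * avg U' c g x = (Fintype.card (Γ ⧸ U') : ℤ) * avg U c g x :=
  card_mul_sum_out U' U hle (fun a => c g a x) (fun a u hu => by rw [hr g a u hu])

end Level

end Fermat.Agent.S55.H93
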