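/-
Program C (S55), package C9b, leaf L2-P (helper93): the ABSTRACT GLUE.

`Γ` a group with a level datum `D` (finite-index levels), `P` a `ℤ`-representation of `Γ` with a
"valuation embedding" `val : P ↪ (X → ℤ)` into functions on a `Γ`-set `X` (`ValData`), such that
invariant functions with finite support are, up to a factor prime to `p`, values of `val`
(`ValData.Sat`).  Then, in the level-constant cohomology `H49.Hlc D P`:

* `pa_abs`  : every class of degree `1` is killed by an integer prime to `p`;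
* `l2p_abs` : there are additive maps `lam v : Hlc D P 2 →+ T` (`T ⊇ ℚ/ℤ`), one for each "place"
  `v ∉ VS` (a point `pt v` of `X` with a generator `frob v` of its stabiliser modulo every level),
  given by the classical formula `lam v [z] = ι ((1/f) ∑_{i<f} val (z (φ^i, φ)) (pt v))`, such that
  a class with all `lam v = 0` is killed by an integer prime to `p`, and every class has only
  finitely many nonzero `lam v`.
-/
import Fermat.Agent.S55.H49.ConeApi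
import Fermat.Agent.S55.H68.Bridge1Core
import Fermat.Agent.S55.H99.Bridge2
import Fermat.Agent.S55.H93.PermCore

set_option autoImplicit false

namespace Fermat.Agent.S55.H93

open CategoryTheory groupCohomology Fermat.Agent.S55.H49

variable {Γ : Type} [Group Γ]

/-- Valuation data on a `ℤ`-representation `P` of `Γ`: an injective equivariant additive map to
the integer-valued functions on a `Γ`-set `X`, with a `Γ`-invariant map `pr : X → Y` ("the prime
below") such that every value has support over finitely many points of `Y`. -/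
structure ValData (P : Rep.{0} ℤ Γ) where
  /-- the `Γ`-set -/
  X : Type
  /-- the action -/
  [act : MulAction Γ X]
  /-- the valuation map -/
  val : P →+ (X → ℤ)
  val_smul : ∀ (g : Γ) (m : P) (x : X), val (P.ρ g m) x = val m (g⁻¹ • x)
  val_inj : ∀ m : P, val m = 0 → m = 0
  /-- the set of "primes" -/
  Y : Type
  /-- the prime below a point -/
  pr : X → Y
  pr_smul : ∀ (g : Γ) (x : X), pr (g • x) = pr x
  val_fin : ∀ m : P, {y | ∃ x, pr x = y ∧ val m x ≠ 0}.Finite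

attribute [instance] ValData.act

variable {P : Rep.{0} ℤ Γ}

/-- Saturation at the subgroup `U`: a `U`-invariant function supported over finitely many primes
is, up to a positive factor prime to `p`, a value of `val`. -/
def ValData.SatAt (V : ValData P) (U : Subgroup Γ) (p : ℕ) : Prop :=
  ∀ b : V.X → ℤ, (∀ u ∈ U, ∀ x, b (u • x) = b x) → {y | ∃ x, V.pr x = y ∧ b x ≠ 0}.Finite →
    ∃ m : ℕ, 0 < m ∧ ¬ p ∣ m ∧ ∃ y : P, ∀ x, V.val y x = (m : ℤ) * b x

/-- Saturation at all normal levels. -/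
def ValData.Sat (V : ValData P) (D : LevelDatum Γ) (p : ℕ) : Prop :=
  ∀ F, D.Lev F → (F.fixingSubgroup).Normal → V.SatAt (D.sub F) p

section Raw

variable (V : ValData P)

theorem ValData.eq_of_val_eq {m m' : P} (h : ∀ x, V.val m x = V.val m' x) : m = m' := by
  apply sub_eq_zero.1
  apply V.val_inj
  funext x
  rw [map_sub, Pi.sub_apply, h x, sub_self, Pi.zero_apply]

theorem out_mul_mem (U : Subgroup Γ) (g : Γ) : ((g : Γ ⧸ U).out)⁻¹ * g ∈ U :=
  QuotientGroup.eq.1 (QuotientGroup.out_eq' (g : Γ ⧸ U))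

/-- Raw form of (Pa). -/
theorem raw_pa (U : Subgroup Γ) (hU : U.index ≠ 0) (p : ℕ) (hsat : V.SatAt U p)
    (c : Γ → P) (hc : ∀ g h, P.ρ g (c h) - c (g * h) + c g = 0)
    (hr : ∀ g, ∀ u ∈ U, c (g * u) = c g) :
    ∃ m : ℕ, 0 < m ∧ ¬ p ∣ m ∧ ∃ y : P, (∀ u ∈ U, P.ρ u y = y) ∧
      ∀ g, m • c g = P.ρ g y - y := by
  have : U.FiniteIndex := ⟨hU⟩
  have hfinq : Finite (Γ ⧸ U) := Subgroup.finite_quotient_of_finiteIndex
  have hc' : ∀ g h, c (g * h) = P.ρ g (c h) + c g := fun g h => by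
    have := hc g h
    rw [sub_add_eq_add_sub, sub_eq_zero] at this
    exact this.symm
  have hc1 : c 1 = 0 := by
    have h1 := hc' 1 1
    have h2 : P.ρ 1 (c 1) = c 1 := by rw [map_one]; rfl
    rw [mul_one, h2] at h1
    exact left_eq_add.1 h1
  have hvc : ∀ g h x, V.val (c (g * h)) x = V.val (c g) x + V.val (c h) (g⁻¹ • x) := by
    intro g h x
    rw [hc', map_add, Pi.add_apply, V.val_smul, add_comm]
  have hcU : ∀ u ∈ U, ∀ x, V.val (c u) x = 0 := by
    intro u hu x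
    have h1 := hr 1 u hu
    rw [one_mul, hc1] at h1
    rw [h1, map_zero, Pi.zero_apply]
  obtain ⟨b, hb1, hb2, hb3⟩ := exists_primitive_int (fun g x => V.val (c g) x) hvc U hU hcU
  have hcq : ∀ g, c g = c ((g : Γ ⧸ U).out) := by
    intro g
    have h1 := hr ((g : Γ ⧸ U).out) _ (out_mul_mem U g)
    rw [mul_inv_cancel_left] at h1
    exact h1
  have hbfin : {y | ∃ x, V.pr x = y ∧ b x ≠ 0}.Finite := by
    refine Set.Finite.subset (Set.finite_iUnion fun q : Γ ⧸ U => V.val_fin (c q.out)) ?_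
    rintro y ⟨x, hxy, hx⟩
    obtain ⟨g, hg⟩ := hb2 x hx
    refine Set.mem_iUnion.2 ⟨(g : Γ ⧸ U), x, hxy, ?_⟩
    rw [← hcq g]
    exact hg
  obtain ⟨m, hm0, hmp, y, hy⟩ := hsat b hb3 hbfin
  refine ⟨m, hm0, hmp, y, fun u hu => ?_, fun g => ?_⟩
  · apply V.eq_of_val_eq
    intro x
    rw [V.val_smul, hy, hy, hb3 u⁻¹ (U.inv_mem hu)]
  · apply V.eq_of_val_eq
    intro x
    rw [map_nsmul, Pi.smul_apply, nsmul_eq_mul, map_sub, Pi.sub_apply, V.val_smul, hy, hy, hb1]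
    ring

/-- Raw form of (Pb): a level-`U` 2-cocycle whose averaged character vanishes on all stabilisers
is, up to a factor prime to `p`, the coboundary of a level-`U` 1-cochain. -/
theorem raw_pb (U : Subgroup Γ) (hUN : U.Normal) [Fintype (Γ ⧸ U)] (p : ℕ) (hp : p.Prime)
    (hsat : V.SatAt U p) (c : Γ → Γ → P)
    (hc : ∀ g h k, P.ρ g (c h k) - c (g * h) k + c g (h * k) - c g h = 0)
    (hr : ∀ g h, ∀ u ∈ U, c g (h * u) = c g h)
    (hl : ∀ g h, ∀ u ∈ U, c (g * u) h = c g h)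
    (hfix : ∀ g h, ∀ u ∈ U, P.ρ u (c g h) = c g h)
    (hH : ∀ x : V.X, ∀ d : Γ, d • x = x →
      ((avg U (fun g h x => V.val (c g h) x) d x : ℤ) : ZMod (Fintype.card (Γ ⧸ U))) = 0) :
    ∃ m : ℕ, 0 < m ∧ ¬ p ∣ m ∧ ∃ y : Γ → P, (∀ g, ∀ u ∈ U, y (g * u) = y g) ∧
      (∀ g, ∀ u ∈ U, P.ρ u (y g) = y g) ∧
      ∀ g h, m • c g h = P.ρ g (y h) - y (g * h) + y g := by
  classical
  have hvc : ∀ g h k (x : V.X), V.val (c h k) (g⁻¹ • x) - V.val (c (g * h) k) x +
      V.val (c g (h * k)) x - V.val (c g h) x = 0 := by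
    intro g h k x
    have h1 := congrFun (congrArg V.val (hc g h k)) x
    rw [map_sub, map_add, map_sub, Pi.sub_apply, Pi.add_apply, Pi.sub_apply, V.val_smul,
      map_zero, Pi.zero_apply] at h1
    exact h1
  have hrv : ∀ g h, ∀ u ∈ U, (fun x => V.val (c g (h * u)) x) = fun x => V.val (c g h) x :=
    fun g h u hu => by rw [hr g h u hu]
  have hlv : ∀ g h, ∀ u ∈ U, (fun x => V.val (c (g * u) h) x) = fun x => V.val (c g h) x :=
    fun g h u hu => by rw [hl g h u hu]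
  obtain ⟨β, hβ1, hβ2, hβ3, hβ4⟩ :=
    exists_primitive₂ U (fun g h x => V.val (c g h) x) hvc hrv hlv hH
  have hβinv : ∀ g, ∀ u ∈ U, ∀ x, β g (u • x) = β g x := by
    refine hβ4 (fun g h u hu x => ?_) hUN
    have h1 := V.val_smul u⁻¹ (c g h) x
    rw [inv_inv, hfix g h u⁻¹ (U.inv_mem hu)] at h1
    exact h1.symm
  have hcq : ∀ g h, c g h = c ((g : Γ ⧸ U).out) ((h : Γ ⧸ U).out) := by
    intro g h
    have h1 := hr ((g : Γ ⧸ U).out) ((h : Γ ⧸ U).out) _ (out_mul_mem U h)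
    have h2 := hl ((g : Γ ⧸ U).out) h _ (out_mul_mem U g)
    rw [mul_inv_cancel_left] at h1 h2
    rw [← h1, h2]
  have hβq : ∀ g x, β g x = β ((g : Γ ⧸ U).out) x := by
    intro g x
    have h1 := hβ2 ((g : Γ ⧸ U).out) _ (out_mul_mem U g) x
    rw [mul_inv_cancel_left] at h1
    exact h1
  have hEfin : (⋃ q : (Γ ⧸ U) × (Γ ⧸ U),
      {y | ∃ x, V.pr x = y ∧ V.val (c q.1.out q.2.out) x ≠ 0}).Finite :=
    Set.finite_iUnion fun q => V.val_fin (c q.1.out q.2.out)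
  have hβfin : ∀ g, {y | ∃ x, V.pr x = y ∧ β g x ≠ 0}.Finite := by
    intro g
    refine Set.Finite.subset hEfin ?_
    rintro y ⟨x, hxy, hx⟩
    rcases hβ3 g x hx with ⟨g', h', h1⟩ | ⟨g', h', h1⟩
    · refine Set.mem_iUnion.2 ⟨((g' : Γ ⧸ U), (h' : Γ ⧸ U)), x, hxy, ?_⟩
      rw [← hcq g' h']
      exact h1
    · refine Set.mem_iUnion.2 ⟨((g' : Γ ⧸ U), (h' : Γ ⧸ U)), g⁻¹ • x, ?_, ?_⟩
      · rw [V.pr_smul, hxy]
      · rw [← hcq g' h']
        exact h1
  have hex : ∀ q : Γ ⧸ U, ∃ m : ℕ, 0 < m ∧ ¬ p ∣ m ∧ ∃ y : P, ∀ x, V.val y x = (m : ℤ) * β q.out x :=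
    fun q => hsat (β q.out) (hβinv q.out) (hβfin q.out)
  choose mq hmq0 hmqp yq hyq using hex
  let y : Γ → P := fun g => (∏ q' ∈ Finset.univ.erase (g : Γ ⧸ U), mq q') • yq (g : Γ ⧸ U)
  have hy : ∀ g x, V.val (y g) x = ((∏ q, mq q : ℕ) : ℤ) * β g x := by
    intro g x
    change V.val ((∏ q' ∈ Finset.univ.erase (g : Γ ⧸ U), mq q') • yq (g : Γ ⧸ U)) x = _
    rw [map_nsmul, Pi.smul_apply, nsmul_eq_mul, hyq, ← hβq g x, ← mul_assoc,
      ← Finset.mul_prod_erase Finset.univ mq (Finset.mem_univ (g : Γ ⧸ U))]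
    push_cast
    ring
  refine ⟨∏ q, mq q, Finset.prod_pos fun q _ => hmq0 q, ?_, y, fun g u hu => ?_, fun g u hu => ?_,
    fun g h => ?_⟩
  · intro hdvd
    obtain ⟨q, -, hq⟩ := (Prime.dvd_finsetProd_iff hp.prime _).1 hdvd
    exact hmqp q hq
  · apply V.eq_of_val_eq
    intro x
    rw [hy, hy, hβ2 g u hu]
  · apply V.eq_of_val_eq
    intro x
    rw [V.val_smul, hy, hy, hβinv g u⁻¹ (U.inv_mem hu)]
  · apply V.eq_of_val_eq
    intro x
    rw [map_nsmul, Pi.smul_apply, nsmul_eq_mul, map_add, map_sub, Pi.add_apply, Pi.sub_apply,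
      V.val_smul, hy, hy, hy, hβ1 g h x]
    push_cast
    ring

end Raw

section Cyclic

variable {X : Type} [MulAction Γ X] (U : Subgroup Γ) [Fintype (Γ ⧸ U)]

/-- **The cyclic formula** for the averaged cochain at an element `φ` of the stabiliser of `x`
with `φ ^ f ∈ U`:  `n • ∑_{i<f} c (φ^i, φ) = f • avg c φ`. -/
theorem card_mul_sum_range (c : Γ → Γ → X → ℤ)
    (hc : ∀ g h k x, c h k (g⁻¹ • x) - c (g * h) k x + c g (h * k) x - c g h x = 0)
    (hr : ∀ g h, ∀ u ∈ U, c g (h * u) = c g h)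
    (hl : ∀ g h, ∀ u ∈ U, c (g * u) h = c g h)
    (x : X) (φ : Γ) (hφ : φ • x = x) (f : ℕ) (hf : φ ^ f ∈ U) :
    (Fintype.card (Γ ⧸ U) : ℤ) * ∑ i ∈ Finset.range f, c (φ ^ i) φ x = (f : ℤ) * avg U c φ x := by
  have hpow : ∀ i : ℕ, (φ ^ i)⁻¹ • x = x := by
    intro i
    rw [inv_smul_eq_iff]
    induction i with
    | zero => rw [pow_zero, one_smul]
    | succ i ih => rw [pow_succ, mul_smul, hφ, ← ih]
  have h1 : ∀ i : ℕ, (Fintype.card (Γ ⧸ U) : ℤ) * c (φ ^ i) φ x =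
      avg U c φ x - (avg U c (φ ^ (i + 1)) x - avg U c (φ ^ i) x) := by
    intro i
    rw [avg_cocycle U c hc hr (φ ^ i) φ x, hpow i, pow_succ]
    ring
  have h2 : avg U c (φ ^ f) x = avg U c 1 x := by
    unfold avg
    refine Finset.sum_congr rfl fun q _ => ?_
    have h3 := hl 1 q.out _ hf
    rw [one_mul] at h3
    rw [h3]
  rw [Finset.mul_sum, Finset.sum_congr rfl (fun i _ => h1 i), Finset.sum_sub_distrib,
    Finset.sum_range_sub (fun i => avg U c (φ ^ i) x), Finset.sum_const, Finset.card_range, h2,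
    pow_zero, sub_self, sub_zero, nsmul_eq_mul]

end Cyclic

section LamAt

variable {X : Type}

/-- The normalised average `(1/n) ∑_{h ∈ Γ/U} c (φ, h) (x)`, `n = (Γ : U)` (instance-free). -/
noncomputable def lamAt (U : Subgroup Γ) (c : Γ → Γ → X → ℤ) (x : X) (φ : Γ) : ℚ :=
  ((∑ᶠ q : Γ ⧸ U, c φ q.out x : ℤ) : ℚ) / (Nat.card (Γ ⧸ U) : ℚ)

theorem lamAt_eq_avg [MulAction Γ X] (U : Subgroup Γ) [Fintype (Γ ⧸ U)] (c : Γ → Γ → X → ℤ)
    (x : X) (φ : Γ) : lamAt U c x φ = (avg U c φ x : ℚ) / (Fintype.card (Γ ⧸ U) : ℚ) := by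
  unfold lamAt avg
  rw [finsum_eq_sum_of_fintype, Nat.card_eq_fintype_card]

/-- Independence of the level. -/
theorem lamAt_mono [MulAction Γ X] (U' U : Subgroup Γ) (hN : U'.Normal) (hU' : U'.index ≠ 0)
    (hU : U.index ≠ 0) (hle : U' ≤ U) (c : Γ → Γ → X → ℤ)
    (hr : ∀ g h, ∀ u ∈ U, c g (h * u) = c g h) (x : X) (φ : Γ) :
    lamAt U' c x φ = lamAt U c x φ := by
  have : Fintype (Γ ⧸ U') := Subgroup.fintypeOfIndexNeZero hU'
  have : Fintype (Γ ⧸ U) := Subgroup.fintypeOfIndexNeZero hU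
  rw [lamAt_eq_avg, lamAt_eq_avg]
  have h1 := card_mul_avg U' U hle c hr φ x
  have h2 : ((Fintype.card (Γ ⧸ U') : ℕ) : ℚ) ≠ 0 := by exact_mod_cast Fintype.card_ne_zero
  have h3 : ((Fintype.card (Γ ⧸ U) : ℕ) : ℚ) ≠ 0 := by exact_mod_cast Fintype.card_ne_zero
  have h4 : ((Fintype.card (Γ ⧸ U) : ℕ) : ℚ) * (avg U' c φ x : ℚ) =
      ((Fintype.card (Γ ⧸ U') : ℕ) : ℚ) * (avg U c φ x : ℚ) := by exact_mod_cast h1
  rw [div_eq_div_iff h2 h3]
  linear_combination h4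

theorem lamAt_add [MulAction Γ X] (U : Subgroup Γ) (hU : U.index ≠ 0) (c₁ c₂ : Γ → Γ → X → ℤ)
    (x : X) (φ : Γ) :
    lamAt U (fun g h x => c₁ g h x + c₂ g h x) x φ = lamAt U c₁ x φ + lamAt U c₂ x φ := by
  have : Fintype (Γ ⧸ U) := Subgroup.fintypeOfIndexNeZero hU
  rw [lamAt_eq_avg, lamAt_eq_avg, lamAt_eq_avg, avg_add]
  push_cast
  rw [add_div]

end LamAt

section Desc

/-- Descent of an additive map on cocycles which kills the coboundaries. -/
theorem exists_desc (K : CochainComplex (ModuleCat.{0} ℤ) ℕ) (n : ℕ) {T : Type} [AddCommGroup T]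
    (f : cyc K (n + 1) →+ T)
    (hf : ∀ z : cyc K (n + 1), (∃ y : K.X n, (K.d n (n + 1)).hom y = z.1) → f z = 0) :
    ∃ g : K.homology (n + 1) →+ T, ∀ z, g ((cls K (n + 1)).hom z) = f z := by
  let π : cyc K (n + 1) →+ K.homology (n + 1) := (cls K (n + 1)).hom.toAddMonoidHom
  have hπ : Function.Surjective π := cls_surjective K (n + 1)
  have hker : π.ker ≤ f.ker := fun z hz => by
    rw [AddMonoidHom.mem_ker] at hz ⊢
    exact hf z ((cls_eq_zero_iff K n z).1 hz)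
  refine ⟨π.liftOfSurjective hπ ⟨f, hker⟩, fun z => ?_⟩
  exact AddMonoidHom.liftOfRightInverse_comp_apply _ _ _ _ z

end Desc

section Hlc

variable (D : LevelDatum Γ)

theorem isLC_lcVal {n : ℕ} (z : cyc (lcComplex D P) n) : IsLC D P (lcVal z) :=
  (show lcCochains D P n from z.1).2

/-- The function of two variables of a 2-cocycle of the level-constant complex. -/
noncomputable def cocFn (z : cyc (lcComplex D P) 2) : Γ → Γ → P := fun g h => lcVal z ![g, h]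

theorem cocFn_cocycle (z : cyc (lcComplex D P) 2) (g h k : Γ) :
    P.ρ g (cocFn D z h k) - cocFn D z (g * h) k + cocFn D z g (h * k) - cocFn D z g h = 0 := by
  have hz : (inhomogeneousCochains.d P 2).hom (lcVal z) = 0 := by
    have h1 := H99.lcValC_d D P 2 z.1
    rw [mem_cyc.mp z.2] at h1
    exact h1.symm
  have h2 : lcVal z = fun g : Fin 2 → Γ => (fun q : Γ × Γ => lcVal z ![q.1, q.2]) (g 0, g 1) := by
    funext g
    show lcVal z g = lcVal z ![g 0, g 1]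
    rw [H99.fin_two_eta]
  rw [h2] at hz
  exact (mem_cocycles₂_def _).1
    ((H99.d_two_eq_zero_iff P (fun q : Γ × Γ => lcVal z ![q.1, q.2])).1 hz) g h k

omit [Group Γ] in
theorem vec2_mul [Mul Γ] (g h s t : Γ) : (![g, h] * ![s, t] : Fin 2 → Γ) = ![g * s, h * t] := by
  funext i
  fin_cases i <;> rfl

variable {D}

theorem cocFn_right {U : Subgroup Γ} {z : cyc (lcComplex D P) 2} (hz : IsLCAt U P (lcVal z))
    (g h : Γ) (u : Γ) (hu : u ∈ U) : cocFn D z g (h * u) = cocFn D z g h := by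
  have h1 := hz.1 ![g, h] ![1, u] (fun i => by fin_cases i; exact U.one_mem; exact hu)
  rw [vec2_mul, mul_one] at h1
  exact h1

theorem cocFn_left {U : Subgroup Γ} {z : cyc (lcComplex D P) 2} (hz : IsLCAt U P (lcVal z))
    (g h : Γ) (u : Γ) (hu : u ∈ U) : cocFn D z (g * u) h = cocFn D z g h := by
  have h1 := hz.1 ![g, h] ![u, 1] (fun i => by fin_cases i; exact hu; exact U.one_mem)
  rw [vec2_mul, mul_one] at h1
  exact h1

theorem cocFn_fix {U : Subgroup Γ} {z : cyc (lcComplex D P) 2} (hz : IsLCAt U P (lcVal z))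
    (g h : Γ) (u : Γ) (hu : u ∈ U) : P.ρ u (cocFn D z g h) = cocFn D z g h :=
  hz.2 ![g, h] u hu

variable (D) (V : ValData P)

/-- The integer-valued 2-cochain `val ∘ z`. -/
noncomputable def ValData.vc (z : cyc (lcComplex D P) 2) : Γ → Γ → V.X → ℤ :=
  fun g h x => V.val (cocFn D z g h) x

theorem ValData.vc_cocycle (z : cyc (lcComplex D P) 2) (g h k : Γ) (x : V.X) :
    V.vc D z h k (g⁻¹ • x) - V.vc D z (g * h) k x + V.vc D z g (h * k) x - V.vc D z g h x = 0 := by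
  have h1 := congrFun (congrArg V.val (cocFn_cocycle D z g h k)) x
  rw [map_sub, map_add, map_sub, Pi.sub_apply, Pi.add_apply, Pi.sub_apply, V.val_smul,
    map_zero, Pi.zero_apply] at h1
  exact h1

variable {D}

theorem ValData.vc_right {U : Subgroup Γ} {z : cyc (lcComplex D P) 2}
    (hz : IsLCAt U P (lcVal z)) (g h : Γ) (u : Γ) (hu : u ∈ U) :
    V.vc D z g (h * u) = V.vc D z g h := by
  unfold ValData.vc
  rw [cocFn_right hz g h u hu]

theorem ValData.vc_left {U : Subgroup Γ} {z : cyc (lcComplex D P) 2}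
    (hz : IsLCAt U P (lcVal z)) (g h : Γ) (u : Γ) (hu : u ∈ U) :
    V.vc D z (g * u) h = V.vc D z g h := by
  unfold ValData.vc
  rw [cocFn_left hz g h u hu]

variable (D)

/-- The rational number `(1/n) ∑_{h ∈ Γ/U} val (z (φ, h)) (x)` for a level `U` of `z`. -/
noncomputable def lamQ (z : cyc (lcComplex D P) 2) (x : V.X) (φ : Γ) : ℚ :=
  lamAt (D.sub (Classical.choose (isLC_lcVal D z))) (V.vc D z) x φ

variable {D}

theorem lamQ_eq (hfin : ∀ F, D.Lev F → (D.sub F).index ≠ 0) (z : cyc (lcComplex D P) 2)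
    {F : IntermediateField ℚ (AlgebraicClosure ℚ)} (hF : D.Lev F) (hN : (F.fixingSubgroup).Normal)
    (h : IsLCAt (D.sub F) P (lcVal z)) (x : V.X) (φ : Γ) :
    lamQ D V z x φ = lamAt (D.sub F) (V.vc D z) x φ := by
  obtain ⟨hF₀, hN₀, h₀⟩ := Classical.choose_spec (isLC_lcVal D z)
  have hsupN : (D.sub (F ⊔ Classical.choose (isLC_lcVal D z))).Normal :=
    D.sub_normal (normal_fixingSubgroup_sup hN hN₀)
  have hsup := hfin _ (D.sup hF hF₀)
  unfold lamQ
  rw [← lamAt_mono _ _ hsupN hsup (hfin _ hF₀) (D.sub_antitone le_sup_right) _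
      (V.vc_right h₀) x φ,
    ← lamAt_mono _ _ hsupN hsup (hfin _ hF) (D.sub_antitone le_sup_left) _ (V.vc_right h) x φ]

theorem lamQ_add (hfin : ∀ F, D.Lev F → (D.sub F).index ≠ 0) (z z' : cyc (lcComplex D P) 2)
    (x : V.X) (φ : Γ) : lamQ D V (z + z') x φ = lamQ D V z x φ + lamQ D V z' x φ := by
  obtain ⟨F₁, hF₁, hN₁, h₁⟩ := isLC_lcVal D z
  obtain ⟨F₂, hF₂, hN₂, h₂⟩ := isLC_lcVal D z'
  have hF := D.sup hF₁ hF₂
  have hN := normal_fixingSubgroup_sup hN₁ hN₂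
  have h₁' := h₁.mono (D.sub_antitone (le_sup_left : F₁ ≤ F₁ ⊔ F₂))
  have h₂' := h₂.mono (D.sub_antitone (le_sup_right : F₂ ≤ F₁ ⊔ F₂))
  have h₃ : IsLCAt (D.sub (F₁ ⊔ F₂)) P (lcVal (z + z')) := h₁'.add h₂'
  rw [lamQ_eq V hfin z hF hN h₁', lamQ_eq V hfin z' hF hN h₂', lamQ_eq V hfin (z + z') hF hN h₃,
    ← lamAt_add _ (hfin _ hF)]
  congr 1
  funext g h x
  show V.val (lcVal z ![g, h] + lcVal z' ![g, h]) x = _
  rw [map_add, Pi.add_apply]
  rfl

theorem lamQ_cob (hfin : ∀ F, D.Lev F → (D.sub F).index ≠ 0) (z : cyc (lcComplex D P) 2)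
    (y : (lcComplex D P).X 1) (hy : ((lcComplex D P).d 1 (1 + 1)).hom y = z.1)
    (x : V.X) (φ : Γ) (hφ : φ • x = x) : ∃ j : ℤ, lamQ D V z x φ = (j : ℚ) := by
  obtain ⟨F₁, hF₁, hN₁, h₁⟩ := H68.isLC_lcValC D P y
  obtain ⟨F₂, hF₂, hN₂, h₂⟩ := isLC_lcVal D z
  have hF := D.sup hF₁ hF₂
  have hN := normal_fixingSubgroup_sup hN₁ hN₂
  have h₁' := h₁.mono (D.sub_antitone (le_sup_left : F₁ ≤ F₁ ⊔ F₂))
  have h₂' := h₂.mono (D.sub_antitone (le_sup_right : F₂ ≤ F₁ ⊔ F₂))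
  have : Fintype (Γ ⧸ D.sub (F₁ ⊔ F₂)) := Subgroup.fintypeOfIndexNeZero (hfin _ hF)
  let β₀ : Γ → V.X → ℤ := fun g x => V.val (lcValC y fun _ => g) x
  have hβ₀ : ∀ g, ∀ u ∈ D.sub (F₁ ⊔ F₂), β₀ (g * u) = β₀ g := by
    intro g u hu
    have h3 : lcValC y ((fun _ => g) * fun _ => u) = lcValC y fun _ => g :=
      h₁'.1 (fun _ => g) (fun _ => u) (fun _ => hu)
    funext x
    show V.val (lcValC y fun _ => g * u) x = V.val (lcValC y fun _ => g) x
    rw [← h3]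
    rfl
  have hvc : V.vc D z = fun g h x => β₀ h (g⁻¹ • x) - β₀ (g * h) x + β₀ g x := by
    funext g h x
    have h3 : lcVal z ![g, h] = (inhomogeneousCochains.d P 1).hom (lcValC y) ![g, h] := by
      rw [← H68.lcValC_d, hy]
      rfl
    rw [H68.d_one_apply] at h3
    simp only [Matrix.cons_val_zero, Matrix.cons_val_one] at h3
    show V.val (lcVal z ![g, h]) x = _
    rw [h3, map_add, map_sub, Pi.add_apply, Pi.sub_apply, V.val_smul]
  refine ⟨β₀ φ x, ?_⟩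
  rw [lamQ_eq V hfin z hF hN h₂', lamAt_eq_avg, hvc, avg_coboundary _ β₀ hβ₀ x φ hφ]
  have h4 : ((Fintype.card (Γ ⧸ D.sub (F₁ ⊔ F₂)) : ℕ) : ℚ) ≠ 0 := by
    exact_mod_cast Fintype.card_ne_zero
  push_cast
  field_simp

end Hlc

section Main

variable (D : LevelDatum Γ) (V : ValData P)

/-- **(Pa), abstract form**: every class of `Hlc D P 1` is killed by a positive integer prime to
`p`. -/
theorem pa_abs (p : ℕ) (hfin : ∀ F, D.Lev F → (D.sub F).index ≠ 0) (hsat : V.Sat D p)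
    (c : Hlc D P 1) : ∃ m : ℕ, 0 < m ∧ ¬ p ∣ m ∧ m • c = 0 := by
  obtain ⟨z, rfl⟩ := cls_surjective (lcComplex D P) 1 c
  obtain ⟨F, hF, hN, hz⟩ := isLC_lcVal D z
  have hcoc : ∀ g h, P.ρ g (H68.ofCyc₁ D P z h) - H68.ofCyc₁ D P z (g * h) +
      H68.ofCyc₁ D P z g = 0 :=
    (mem_cocycles₁_def _).1 (H68.ofCyc₁_mem_cocycles₁ D P z)
  have hr : ∀ g, ∀ u ∈ D.sub F, H68.ofCyc₁ D P z (g * u) = H68.ofCyc₁ D P z g := by
    intro g u hu
    exact hz.1 (fun _ => g) (fun _ => u) (fun _ => hu)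
  obtain ⟨m, hm0, hmp, y, hyU, hy⟩ :=
    raw_pa V (D.sub F) (hfin F hF) p (hsat F hF hN) (H68.ofCyc₁ D P z) hcoc hr
  refine ⟨m, hm0, hmp, ?_⟩
  have key : (cls (lcComplex D P) 1).hom (m • z) = 0 := by
    apply (cls_eq_zero_iff (lcComplex D P) 0 (m • z)).2
    have hlc0 : IsLCAt (D.sub F) P (fun _ : Fin 0 → Γ => y) :=
      ⟨fun _ _ _ => rfl, fun _ s hs => hyU s hs⟩
    have hlc : IsLC D P (fun _ : Fin 0 → Γ => y) := ⟨F, hF, hN, hlc0⟩
    refine ⟨H68.mkX D P 0 (fun _ => y) hlc, ?_⟩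
    apply lcValC_injective
    rw [H68.lcValC_d, H68.lcValC_mkX]
    funext g
    rw [H68.d_zero_apply, ← hy (g 0)]
    show m • H68.ofCyc₁ D P z (g 0) = m • lcVal z g
    rw [← H68.toCochain₁_ofCyc₁ D P z]
    rfl
  exact (map_nsmul (cls (lcComplex D P) 1).hom m z).symm.trans key

variable {T : Type} [AddCommGroup T]

/-- The invariant attached to a point `x` and an element `φ` of its stabiliser, on cohomology. -/
theorem exists_lamH (hfin : ∀ F, D.Lev F → (D.sub F).index ≠ 0) (ι : ℚ →+ T)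
    (hι : ∀ j : ℤ, ι (j : ℚ) = 0) (x : V.X) (φ : Γ) (hφ : φ • x = x) :
    ∃ g : Hlc D P 2 →+ T, ∀ z : cyc (lcComplex D P) 2,
      g ((cls (lcComplex D P) 2).hom z) = ι (lamQ D V z x φ) := by
  refine exists_desc (lcComplex D P) 1
    (AddMonoidHom.mk' (fun z => ι (lamQ D V z x φ)) fun z z' => by
      rw [lamQ_add V hfin, map_add]) ?_
  rintro z ⟨y, hy⟩
  obtain ⟨j, hj⟩ := lamQ_cob V hfin z y hy x φ hφ
  show ι (lamQ D V z x φ) = 0
  rw [hj, hι]

/-- **L2-P, abstract form.** -/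
theorem l2p_abs (p : ℕ) (hp : p.Prime) (hfin : ∀ F, D.Lev F → (D.sub F).index ≠ 0)
    (hsat : V.Sat D p) (ι : ℚ →+ T) (hι : ∀ q : ℚ, ι q = 0 ↔ ∃ j : ℤ, q = (j : ℚ))
    {I : Type} (VS : Finset I) (pt : I → V.X) (frob : I → Γ)
    (hfrob : ∀ v, v ∉ VS → frob v • pt v = pt v)
    (hdec : ∀ v, v ∉ VS → ∀ F, D.Lev F → (F.fixingSubgroup).Normal → ∀ d : Γ, d • pt v = pt v →
      ∃ k : ℕ, ∃ u ∈ D.sub F, d = frob v ^ k * u)
    (horb : ∀ x : V.X, ∃ v, v ∉ VS ∧ ∃ g : Γ, g • pt v = x)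
    (hfib : ∀ y : V.Y, {v | v ∉ VS ∧ V.pr (pt v) = y}.Finite) :
    ∃ lam : I → (Hlc D P 2 →+ T),
      (∀ v, v ∉ VS → ∀ (z : cyc (lcComplex D P) 2) (F : IntermediateField ℚ (AlgebraicClosure ℚ)),
        D.Lev F → (F.fixingSubgroup).Normal → IsLCAt (D.sub F) P (lcVal z) →
        ∀ f : ℕ, 0 < f → frob v ^ f ∈ D.sub F →
          lam v ((cls (lcComplex D P) 2).hom z) =
            ι ((∑ i ∈ Finset.range f, (V.val (lcVal z ![frob v ^ i, frob v]) (pt v) : ℚ)) /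
              (f : ℚ))) ∧
      (∀ c : Hlc D P 1, ∃ m : ℕ, 0 < m ∧ ¬ p ∣ m ∧ m • c = 0) ∧
      (∀ c : Hlc D P 2, (∀ v, v ∉ VS → lam v c = 0) → ∃ m : ℕ, 0 < m ∧ ¬ p ∣ m ∧ m • c = 0) ∧
      (∀ c : Hlc D P 2, ∃ W : Finset I, ∀ v, v ∉ W → lam v c = 0) := by
  classical
  have hιZ : ∀ j : ℤ, ι (j : ℚ) = 0 := fun j => (hι _).2 ⟨j, rfl⟩
  have hex : ∀ v : I, ∃ g : Hlc D P 2 →+ T, v ∉ VS → ∀ z : cyc (lcComplex D P) 2,
      g ((cls (lcComplex D P) 2).hom z) = ι (lamQ D V z (pt v) (frob v)) := by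
    intro v
    by_cases hv : v ∈ VS
    · exact ⟨0, fun h => absurd hv h⟩
    · obtain ⟨g, hg⟩ := exists_lamH D V hfin ι hιZ (pt v) (frob v) (hfrob v hv)
      exact ⟨g, fun _ => hg⟩
  choose lam hlam using hex
  refine ⟨lam, ?_, pa_abs D V p hfin hsat, ?_, ?_⟩
  · -- the cyclic formula
    intro v hv z F hF hN hz f hf0 hfU
    have : Fintype (Γ ⧸ D.sub F) := Subgroup.fintypeOfIndexNeZero (hfin F hF)
    rw [hlam v hv z, lamQ_eq V hfin z hF hN hz, lamAt_eq_avg]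
    congr 1
    have h1 := card_mul_sum_range (D.sub F) (V.vc D z) (V.vc_cocycle D z)
      (fun g h u hu => V.vc_right hz g h u hu) (fun g h u hu => V.vc_left hz g h u hu)
      (pt v) (frob v) (hfrob v hv) f hfU
    have h2 : ((Fintype.card (Γ ⧸ D.sub F) : ℕ) : ℚ) ≠ 0 := by
      exact_mod_cast Fintype.card_ne_zero
    have h3 : (f : ℚ) ≠ 0 := by exact_mod_cast hf0.ne'
    have h4 : ((Fintype.card (Γ ⧸ D.sub F) : ℕ) : ℚ) *
        ∑ i ∈ Finset.range f, (V.val (lcVal z ![frob v ^ i, frob v]) (pt v) : ℚ) =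
          (f : ℚ) * (avg (D.sub F) (V.vc D z) (frob v) (pt v) : ℚ) := by
      have h5 : ∑ i ∈ Finset.range f, (V.val (lcVal z ![frob v ^ i, frob v]) (pt v) : ℚ) =
          ((∑ i ∈ Finset.range f, V.vc D z (frob v ^ i) (frob v) (pt v) : ℤ) : ℚ) := by
        push_cast
        rfl
      rw [h5]
      exact_mod_cast h1
    rw [div_eq_div_iff h2 h3]
    linear_combination (-1 : ℚ) * h4
  · -- (Pb)
    intro c hc
    obtain ⟨z, rfl⟩ := cls_surjective (lcComplex D P) 2 c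
    obtain ⟨F, hF, hN, hz⟩ := isLC_lcVal D z
    have hUN : (D.sub F).Normal := D.sub_normal hN
    have : Fintype (Γ ⧸ D.sub F) := Subgroup.fintypeOfIndexNeZero (hfin F hF)
    have hcard : ((Fintype.card (Γ ⧸ D.sub F) : ℕ) : ℚ) ≠ 0 := by
      exact_mod_cast Fintype.card_ne_zero
    have hH : ∀ x : V.X, ∀ d : Γ, d • x = x →
        ((avg (D.sub F) (fun g h x => V.val (cocFn D z g h) x) d x : ℤ) :
          ZMod (Fintype.card (Γ ⧸ D.sub F))) = 0 := by
      intro x d hd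
      obtain ⟨v, hv, g, rfl⟩ := horb x
      have hd' : (g⁻¹ * d * g) • pt v = pt v := by
        rw [mul_smul, mul_smul, hd, inv_smul_smul]
      obtain ⟨k, u, hu, hku⟩ := hdec v hv F hF hN _ hd'
      -- the Frobenius value vanishes
      have h0 : ((avg (D.sub F) (V.vc D z) (frob v) (pt v) : ℤ) :
          ZMod (Fintype.card (Γ ⧸ D.sub F))) = 0 := by
        have h1 := hc v hv
        rw [hlam v hv z, lamQ_eq V hfin z hF hN hz, lamAt_eq_avg] at h1
        obtain ⟨j, hj⟩ := (hι _).1 h1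
        rw [div_eq_iff hcard] at hj
        have h2 : avg (D.sub F) (V.vc D z) (frob v) (pt v) =
            j * (Fintype.card (Γ ⧸ D.sub F) : ℤ) := by exact_mod_cast hj
        rw [h2]
        simp
      have h1 := avg_stab_eq_zero_of_generator (D.sub F) (V.vc D z) (V.vc_cocycle D z)
        (fun g h u hu => V.vc_right hz g h u hu) (fun g h u hu => V.vc_left hz g h u hu)
        (pt v) (frob v) (hfrob v hv) h0 k u hu
      rw [← hku] at h1
      have h2 := avg_mod_conj (D.sub F) (V.vc D z) (V.vc_cocycle D z)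
        (fun g h u hu => V.vc_right hz g h u hu) (pt v) g (g⁻¹ * d * g) hd'
      have h3 : g * (g⁻¹ * d * g) * g⁻¹ = d := by group
      rw [h3, h1] at h2
      exact h2
    obtain ⟨m, hm0, hmp, y, hy1, hy2, hy3⟩ := raw_pb V (D.sub F) hUN p hp (hsat F hF hN)
      (cocFn D z) (cocFn_cocycle D z) (cocFn_right hz) (cocFn_left hz) (cocFn_fix hz) hH
    refine ⟨m, hm0, hmp, ?_⟩
    have key : (cls (lcComplex D P) 2).hom (m • z) = 0 := by
      apply (cls_eq_zero_iff (lcComplex D P) 1 (m • z)).2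
      have hlc0 : IsLCAt (D.sub F) P (fun g : Fin 1 → Γ => y (g 0)) :=
        ⟨fun g s hs => hy1 (g 0) (s 0) (hs 0), fun g s hs => hy2 (g 0) s hs⟩
      have hlc : IsLC D P (fun g : Fin 1 → Γ => y (g 0)) := ⟨F, hF, hN, hlc0⟩
      refine ⟨H68.mkX D P 1 (fun g => y (g 0)) hlc, ?_⟩
      apply lcValC_injective
      rw [H68.lcValC_d, H68.lcValC_mkX]
      funext g
      rw [H68.d_one_apply, ← hy3 (g 0) (g 1)]
      show m • lcVal z ![g 0, g 1] = m • lcVal z g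
      rw [H99.fin_two_eta]
    exact (map_nsmul (cls (lcComplex D P) 2).hom m z).symm.trans key
  · -- (Pbfin)
    intro c
    obtain ⟨z, rfl⟩ := cls_surjective (lcComplex D P) 2 c
    obtain ⟨F, hF, hN, hz⟩ := isLC_lcVal D z
    have : Fintype (Γ ⧸ D.sub F) := Subgroup.fintypeOfIndexNeZero (hfin F hF)
    have hEfin : (⋃ q : (Γ ⧸ D.sub F) × (Γ ⧸ D.sub F),
        {y | ∃ x, V.pr x = y ∧ V.val (cocFn D z q.1.out q.2.out) x ≠ 0}).Finite :=
      Set.finite_iUnion fun q => V.val_fin (cocFn D z q.1.out q.2.out)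
    have hWfin : {v | v ∉ VS ∧ V.pr (pt v) ∈ ⋃ q : (Γ ⧸ D.sub F) × (Γ ⧸ D.sub F),
        {y | ∃ x, V.pr x = y ∧ V.val (cocFn D z q.1.out q.2.out) x ≠ 0}}.Finite := by
      refine Set.Finite.subset (hEfin.biUnion fun y _ => hfib y) ?_
      rintro v ⟨hv, hmem⟩
      exact Set.mem_biUnion hmem ⟨hv, rfl⟩
    refine ⟨VS ∪ hWfin.toFinset, fun v hvW => ?_⟩
    have hv : v ∉ VS := fun h => hvW (Finset.mem_union_left _ h)
    have hvE : V.pr (pt v) ∉ ⋃ q : (Γ ⧸ D.sub F) × (Γ ⧸ D.sub F),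
        {y | ∃ x, V.pr x = y ∧ V.val (cocFn D z q.1.out q.2.out) x ≠ 0} := fun h =>
      hvW (Finset.mem_union_right _ ((Set.Finite.mem_toFinset hWfin).2 ⟨hv, h⟩))
    rw [hlam v hv z, lamQ_eq V hfin z hF hN hz, lamAt_eq_avg]
    have h0 : avg (D.sub F) (V.vc D z) (frob v) (pt v) = 0 := by
      unfold avg
      refine Finset.sum_eq_zero fun q _ => ?_
      by_contra hne
      apply hvE
      refine Set.mem_iUnion.2 ⟨((frob v : Γ ⧸ D.sub F), q), pt v, rfl, ?_⟩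
      have h1 := cocFn_left hz ((frob v : Γ ⧸ D.sub F).out) q.out _ (out_mul_mem (D.sub F) (frob v))
      rw [mul_inv_cancel_left] at h1
      show V.val (cocFn D z ((frob v : Γ ⧸ D.sub F).out) q.out) (pt v) ≠ 0
      rw [← h1]
      exact hne
    rw [h0, Int.cast_zero, zero_div, map_zero]

end Main

end Fermat.Agent.S55.H93
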