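/-
Program C (S55), package C9b, leaf L2-P (helper93): INSTANTIATION of the abstract glue
(`L2PAbs`) for `Γ = Gal(ℚ̄/F)`, `D = H42.fieldDatum S F`, `P = P_S = ℚ_S^× / E_S`.

* `PX S` : the valuation subrings of `ℚ̄` over the primes outside `S`, with the action of
  `Gal(ℚ̄/ℚ)` (hence of `Gal(ℚ̄/F)`); `PX.prime` the prime below.
* `ordQ` : the valuation embedding on `ℚ_S^×` (`ordQ y x = m` iff `y / ℓ ^ m` is a unit at `x`);
  `valP` : its descent to `P_S`; `valData S F : ValData (resF F (PSx S))`.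
* `SatStatement p S` : the arithmetic leaf (SAT) (owner helper56), and `sat_of` : it implies the
  abstract saturation `(valData S F).Sat (fieldDatum S F) p`.
* `hdec_of` : the Galois leaf (DEC) in the form consumed by `l2p_abs`.
* `l2p` : the export.
-/
import Fermat.Agent.S55.H93.L2PAbs
import Fermat.Agent.S55.H93.L2PLeaves
import Fermat.Agent.S55.H93.L2PSat
import Fermat.Agent.S55.H42.GSDefs
import Fermat.Agent.S55.H56.ValCore
import Fermat.Agent.S55.H99.LcElt

set_option autoImplicit false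

open CategoryTheory
open scoped Pointwise

noncomputable section

namespace Fermat.Agent.S55.H93

open Fermat.Agent.S55

local notation "Qb" => AlgebraicClosure ℚ
local notation "GQ" => (AlgebraicClosure ℚ ≃ₐ[ℚ] AlgebraicClosure ℚ)

/-! ### The `Γ`-set of valuation subrings outside `S` -/

/-- A valuation subring of `ℚ̄` lies over at most one prime. -/
theorem liesOverPrime_unique {A : ValuationSubring Qb} {ℓ ℓ' : ℕ} (hℓ : ℓ.Prime) (hℓ' : ℓ'.Prime)
    (h : A.LiesOverPrime ℓ) (h' : A.LiesOverPrime ℓ') : ℓ = ℓ' := by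
  by_contra hne
  have hcop : Nat.Coprime ℓ ℓ' := (Nat.coprime_primes hℓ hℓ').2 hne
  have h1 : (ℓ : A) ∈ IsLocalRing.maximalIdeal A := by
    rw [← ValuationSubring.coe_mem_nonunits_iff]
    push_cast
    exact h
  have h2 : (ℓ' : A) ∈ IsLocalRing.maximalIdeal A := by
    rw [← ValuationSubring.coe_mem_nonunits_iff]
    push_cast
    exact h'
  have e : ((ℓ : ℤ) * Nat.gcdA ℓ ℓ' + (ℓ' : ℤ) * Nat.gcdB ℓ ℓ' : ℤ) = 1 := by
    have := Nat.gcd_eq_gcd_ab ℓ ℓ'
    rw [hcop] at this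
    exact_mod_cast this.symm
  have e' : (1 : A) = (ℓ : A) * ((Nat.gcdA ℓ ℓ' : ℤ) : A) + (ℓ' : A) * ((Nat.gcdB ℓ ℓ' : ℤ) : A) := by
    exact_mod_cast congrArg (fun z : ℤ => (z : A)) e.symm
  have h3 : (1 : A) ∈ IsLocalRing.maximalIdeal A := by
    rw [e']
    exact Ideal.add_mem _ (Ideal.mul_mem_right _ _ h1) (Ideal.mul_mem_right _ _ h2)
  exact (Ideal.ne_top_iff_one _).1 (IsLocalRing.maximalIdeal.isMaximal A).ne_top h3

/-- The valuation subrings of `ℚ̄` over the primes outside `S`. -/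
def PX (S : Finset Nat.Primes) : Type :=
  {A : ValuationSubring Qb // ∃ ℓ : Nat.Primes, ℓ ∉ S ∧ A.LiesOverPrime (ℓ : ℕ)}

namespace PX

variable {S : Finset Nat.Primes}

/-- The point of `PX S` given by a valuation subring over a prime outside `S`. -/
def mk (A : ValuationSubring Qb) (ℓ : Nat.Primes) (hℓ : ℓ ∉ S) (hA : A.LiesOverPrime (ℓ : ℕ)) :
    PX S :=
  ⟨A, ℓ, hℓ, hA⟩

theorem mk_val (A : ValuationSubring Qb) (ℓ : Nat.Primes) (hℓ : ℓ ∉ S)
    (hA : A.LiesOverPrime (ℓ : ℕ)) : (mk A ℓ hℓ hA).1 = A := rfl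

/-- The prime below. -/
def prime (x : PX S) : Nat.Primes := Classical.choose x.2

theorem prime_not_mem (x : PX S) : x.prime ∉ S := (Classical.choose_spec x.2).1

theorem liesOver (x : PX S) : x.1.LiesOverPrime (x.prime : ℕ) := (Classical.choose_spec x.2).2

theorem prime_eq (x : PX S) {ℓ : Nat.Primes} (h : x.1.LiesOverPrime (ℓ : ℕ)) : x.prime = ℓ :=
  Subtype.ext (liesOverPrime_unique x.prime.2 ℓ.2 x.liesOver h)

theorem prime_ne_zero (x : PX S) : ((x.prime : ℕ) : Qb) ≠ 0 :=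
  Nat.cast_ne_zero.2 x.prime.2.ne_zero

instance : MulAction GQ (PX S) where
  smul g x := mk (g • x.1) x.prime x.prime_not_mem (H43.liesOverPrime_smul x.1 g x.liesOver)
  one_smul x := Subtype.ext (one_smul GQ x.1)
  mul_smul g h x := Subtype.ext (mul_smul g h x.1)

theorem smul_val (g : GQ) (x : PX S) : (g • x).1 = g • x.1 := rfl

theorem prime_smul (g : GQ) (x : PX S) : (g • x).prime = x.prime :=
  (g • x).prime_eq (H43.liesOverPrime_smul x.1 g x.liesOver)

end PX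

/-! ### The valuation embedding -/

section Ord

variable {S : Finset Nat.Primes}

/-- `m` is the valuation of `u` at `x`, normalised by the prime below `x`. -/
def IsOrd (x : PX S) (u : Qb) (m : ℤ) : Prop :=
  u / ((x.prime : ℕ) : Qb) ^ m ∈ x.1 ∧ ((x.prime : ℕ) : Qb) ^ m / u ∈ x.1

theorem exists_isOrd (x : PX S) {u : Qbˣ} (hu : u ∈ H42.qsUnits S) :
    ∃ m : ℤ, IsOrd x (u : Qb) m := by
  obtain ⟨N, hN, huN⟩ := hu
  exact H56.exists_zpow_unit hN x.prime x.prime_not_mem x.1 x.liesOver huN u.ne_zero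

theorem IsOrd.unique {x : PX S} {u : Qb} (hu : u ≠ 0) {m m' : ℤ} (h : IsOrd x u m)
    (h' : IsOrd x u m') : m = m' :=
  H56.zpow_unit_unique x.prime.2 x.liesOver hu h.1 h.2 h'.1 h'.2

theorem isOrd_zero_iff (x : PX S) (u : Qb) : IsOrd x u 0 ↔ u ∈ x.1 ∧ u⁻¹ ∈ x.1 := by
  unfold IsOrd
  rw [zpow_zero, div_one, one_div]

theorem IsOrd.smul {x : PX S} {u : Qb} {m : ℤ} (g : GQ) (h : IsOrd x u m) :
    IsOrd (g • x) (g u) m := by
  unfold IsOrd
  rw [PX.prime_smul]
  exact H56.zpow_unit_smul g h.1 h.2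

variable (S)

/-- The valuation of an element of `ℚ_S^×` at a valuation subring outside `S`. -/
def ordQ (y : H42.QSx S) (x : PX S) : ℤ :=
  Classical.choose (exists_isOrd x (H42.unitsRep.val_mem y))

variable {S}

theorem isOrd_ordQ (y : H42.QSx S) (x : PX S) :
    IsOrd x ((H42.unitsRep.val y : Qbˣ) : Qb) (ordQ S y x) :=
  Classical.choose_spec (exists_isOrd x (H42.unitsRep.val_mem y))

theorem ordQ_eq {y : H42.QSx S} {x : PX S} {m : ℤ}
    (h : IsOrd x ((H42.unitsRep.val y : Qbˣ) : Qb) m) : ordQ S y x = m :=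
  (isOrd_ordQ y x).unique (H42.unitsRep.val y).ne_zero h

theorem ordQ_add (y y' : H42.QSx S) (x : PX S) :
    ordQ S (y + y') x = ordQ S y x + ordQ S y' x := by
  apply ordQ_eq
  rw [H42.unitsRep.val_add, Units.val_mul]
  exact H56.zpow_unit_mul x.prime_ne_zero (isOrd_ordQ y x).1 (isOrd_ordQ y x).2
    (isOrd_ordQ y' x).1 (isOrd_ordQ y' x).2

theorem ordQ_smul (g : GQ) (y : H42.QSx S) (x : PX S) :
    ordQ S ((H42.QSx S).ρ g y) x = ordQ S y (g⁻¹ • x) := by
  apply ordQ_eq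
  have h := (isOrd_ordQ y (g⁻¹ • x)).smul g
  rw [smul_inv_smul] at h
  exact h

variable (S)

/-- The valuation embedding of `ℚ_S^×`, as an additive map. -/
def ordQHom : H42.QSx S →+ (PX S → ℤ) :=
  AddMonoidHom.mk' (fun y x => ordQ S y x) fun y y' => funext fun x => ordQ_add y y' x

variable {S}

theorem ordQHom_apply (y : H42.QSx S) (x : PX S) : ordQHom S y x = ordQ S y x := rfl

theorem ordQHom_eq_zero_iff (y : H42.QSx S) :
    ordQHom S y = 0 ↔ H42.unitsRep.val y ∈ H42.sUnits S := by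
  constructor
  · intro h
    refine ⟨H42.unitsRep.val_mem y, fun q hq A hA => ?_⟩
    have h1 := isOrd_ordQ y (PX.mk A q hq hA)
    have h2 : ordQ S y (PX.mk A q hq hA) = 0 := congrFun h _
    rw [h2, isOrd_zero_iff, PX.mk_val] at h1
    rw [Units.val_inv_eq_inv_val]
    exact h1
  · intro h
    funext x
    show ordQ S y x = 0
    apply ordQ_eq
    rw [isOrd_zero_iff]
    have h1 := h.2 x.prime x.prime_not_mem x.1 x.liesOver
    rw [Units.val_inv_eq_inv_val] at h1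
    exact h1

variable (S)

/-- The valuation embedding descends to `P_S = ℚ_S^× / E_S`. -/
theorem exists_valP : ∃ v : H42.PSx S →+ (PX S → ℤ),
    ∀ y : H42.QSx S, v ((H42.qsToPs S).hom y) = ordQHom S y := by
  let π : H42.QSx S →+ H42.PSx S := AddMonoidHomClass.toAddMonoidHom (H42.qsToPs S).hom
  have hπ : Function.Surjective π := H42.qsToPs_surjective S
  have hker : π.ker ≤ (ordQHom S).ker := fun y hy => by
    rw [AddMonoidHom.mem_ker] at hy ⊢
    exact (ordQHom_eq_zero_iff y).2 ((H42.qsToPs_eq_zero_iff S y).1 hy)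
  exact ⟨π.liftOfSurjective hπ ⟨ordQHom S, hker⟩, fun y =>
    AddMonoidHom.liftOfRightInverse_comp_apply _ _ _ _ y⟩

/-- The valuation embedding of `P_S`. -/
def valP : H42.PSx S →+ (PX S → ℤ) := Classical.choose (exists_valP S)

variable {S}

theorem valP_qsToPs (y : H42.QSx S) (x : PX S) :
    valP S ((H42.qsToPs S).hom y) x = ordQ S y x :=
  congrFun (Classical.choose_spec (exists_valP S) y) x

theorem valP_smul (g : GQ) (m : H42.PSx S) (x : PX S) :
    valP S ((H42.PSx S).ρ g m) x = valP S m (g⁻¹ • x) := by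
  obtain ⟨y, rfl⟩ := H42.qsToPs_surjective S m
  rw [← Rep.hom_comm_apply, valP_qsToPs, valP_qsToPs, ordQ_smul]

theorem valP_inj (m : H42.PSx S) (h : valP S m = 0) : m = 0 := by
  obtain ⟨y, rfl⟩ := H42.qsToPs_surjective S m
  rw [H42.qsToPs_eq_zero_iff, ← ordQHom_eq_zero_iff]
  funext x
  have := congrFun h x
  rw [valP_qsToPs] at this
  exact this

theorem valP_fin (m : H42.PSx S) : {ℓ : Nat.Primes | ∃ x : PX S, x.prime = ℓ ∧ valP S m x ≠ 0}.Finite := by
  obtain ⟨y, rfl⟩ := H42.qsToPs_surjective S m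
  obtain ⟨T, hT⟩ := H56.finite_support ((H42.unitsRep.val y : Qbˣ) : Qb) (H42.unitsRep.val y).ne_zero
  refine Set.Finite.subset (Set.Finite.preimage (f := fun ℓ : Nat.Primes => (ℓ : ℕ))
    (fun a _ b _ hab => Subtype.ext hab) T.finite_toSet) ?_
  rintro ℓ ⟨x, rfl, hx⟩
  by_contra hmem
  apply hx
  rw [valP_qsToPs]
  apply ordQ_eq
  rw [isOrd_zero_iff]
  exact hT x.prime x.prime.2 hmem x.1 x.liesOver

end Ord

/-! ### The valuation data of `P_S` over `Gal(ℚ̄/F)` -/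

section Data

variable (S : Finset Nat.Primes) (F : IntermediateField ℚ Qb)

/-- The valuation data of `P_S` over `Gal(ℚ̄/F)`: `X` = valuation subrings of `ℚ̄` over the primes
outside `S`, `val` = the valuation embedding, `Y` = the primes. -/
def valData : ValData (H42.resF F (H42.PSx S)) where
  X := PX S
  act := inferInstance
  val := valP S
  val_smul g m x := valP_smul (g : GQ) m x
  val_inj := valP_inj
  Y := Nat.Primes
  pr := PX.prime
  pr_smul g x := PX.prime_smul (g : GQ) x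
  val_fin := valP_fin

variable {S F}

/-- The arithmetic leaf (SAT) gives the abstract saturation of `valData S F`. -/
theorem sat_of {p : ℕ} (hF : F.IsUnramifiedOutside S) (h : SatStatement p S) :
    (valData S F).Sat (H42.fieldDatum S F) p := by
  classical
  intro L hL _ b hb hbfin
  change L.IsUnramifiedOutside S at hL
  change PX S → ℤ at b
  let b' : ValuationSubring Qb → ℤ := fun A =>
    if hA : ∃ ℓ : Nat.Primes, ℓ ∉ S ∧ A.LiesOverPrime (ℓ : ℕ) then b (PX.mk A _ hA.choose_spec.1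
      hA.choose_spec.2) else 0
  have hb'mk : ∀ x : PX S, b' x.1 = b x := fun x => by
    have hA : ∃ ℓ : Nat.Primes, ℓ ∉ S ∧ x.1.LiesOverPrime (ℓ : ℕ) := x.2
    simp only [b', dif_pos hA]
    rfl
  have hb'0 : ∀ A : ValuationSubring Qb, b' A ≠ 0 →
      ∃ ℓ : Nat.Primes, ℓ ∉ S ∧ A.LiesOverPrime (ℓ : ℕ) := by
    intro A hne
    by_contra hA
    exact hne (by simp only [b', dif_neg hA])
  have hK : (L ⊔ F).IsUnramifiedOutside S := hL.sup hF
  have hb' : ∀ σ ∈ (L ⊔ F).fixingSubgroup, ∀ A, b' (σ • A) = b' A := by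
    intro σ hσ A
    rw [IntermediateField.fixingSubgroup_sup] at hσ
    by_cases hA : ∃ ℓ : Nat.Primes, ℓ ∉ S ∧ A.LiesOverPrime (ℓ : ℕ)
    · have h1 := hb ⟨σ, hσ.2⟩ hσ.1 (PX.mk A _ hA.choose_spec.1 hA.choose_spec.2)
      have h2 := hb'mk (PX.mk A _ hA.choose_spec.1 hA.choose_spec.2)
      have h3 := hb'mk ((⟨σ, hσ.2⟩ : ↥F.fixingSubgroup) • PX.mk A _ hA.choose_spec.1 hA.choose_spec.2)
      exact (h3.trans h1).trans h2.symm
    · have hσA : ¬ ∃ ℓ : Nat.Primes, ℓ ∉ S ∧ (σ • A).LiesOverPrime (ℓ : ℕ) := by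
        rintro ⟨ℓ, hℓ, hl⟩
        apply hA
        refine ⟨ℓ, hℓ, ?_⟩
        have := H43.liesOverPrime_smul (σ • A) σ⁻¹ hl
        rwa [inv_smul_smul] at this
      simp only [b', dif_neg hA, dif_neg hσA]
  have hfin' : {ℓ : Nat.Primes | ∃ A : ValuationSubring Qb,
      A.LiesOverPrime (ℓ : ℕ) ∧ b' A ≠ 0}.Finite := by
    refine Set.Finite.subset hbfin ?_
    rintro ℓ ⟨A, hA, hne⟩
    obtain ⟨ℓ', hℓ', hAℓ'⟩ := hb'0 A hne
    refine ⟨PX.mk A ℓ' hℓ' hAℓ', (PX.mk A ℓ' hℓ' hAℓ').prime_eq hA, ?_⟩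
    rw [← hb'mk]
    exact hne
  obtain ⟨m, hm0, hmp, N, x, hN, hxN, hx0, hx⟩ := h (L ⊔ F) hK b' hb' hfin'
  refine ⟨m, hm0, hmp,
    (H42.qsToPs S).hom (H42.unitsRep.mk (Units.mk0 x hx0) ⟨N, hN, hxN⟩), fun a => ?_⟩
  change PX S at a
  show valP S ((H42.qsToPs S).hom _) a = (m : ℤ) * b a
  rw [valP_qsToPs]
  apply ordQ_eq
  have h1 := hx a.prime a.prime_not_mem a.1 a.liesOver
  rw [hb'mk a] at h1
  exact h1

/-- A number field whose fixing subgroup is normal is stable under `Gal(ℚ̄/ℚ)`. -/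
theorem apply_mem_of_normal {L : IntermediateField ℚ Qb} (hN : (L.fixingSubgroup).Normal)
    (g : GQ) {a : Qb} (ha : a ∈ L) : g a ∈ L := by
  have : Algebra.IsAlgebraic ℚ Qb := AlgebraicClosure.isAlgebraic ℚ
  have : IsAlgClosure ℚ Qb := ⟨inferInstance, inferInstance⟩
  have : IsGalois ℚ Qb := IsAlgClosure.isGalois ℚ Qb
  rw [← InfiniteGalois.fixedField_fixingSubgroup L, IntermediateField.mem_fixedField_iff]
  intro h hh
  have h1 : g⁻¹ * h * g ∈ L.fixingSubgroup := hN.conj_mem' h hh g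
  have h2 := (IntermediateField.mem_fixingSubgroup_iff L _).1 h1 a ha
  have h3 : g ((g⁻¹ * h * g) a) = h (g a) := by
    simp only [AlgEquiv.mul_apply]
    exact AlgEquiv.apply_symm_apply g _
  rw [← h3]
  exact congrArg g h2

/-- The Galois leaf (DEC), in the form consumed by `l2p_abs`. -/
theorem hdec_of (hF : F.IsUnramifiedOutside S) (x : PX S) (φ : GQ) (hφF : φ ∈ F.fixingSubgroup)
    (hgen : ∀ K : IntermediateField ℚ Qb, FiniteDimensional ℚ K → F ≤ K →
      (∀ g ∈ F.fixingSubgroup, ∀ a ∈ K, g a ∈ K) →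
      x.1.inertiaSubgroupIn ℚ ≤ K.fixingSubgroup →
      ∀ d : GQ, d ∈ x.1.decompositionSubgroup ℚ → d ∈ F.fixingSubgroup →
        ∃ k : ℕ, (φ ^ k)⁻¹ * d ∈ K.fixingSubgroup)
    (L : IntermediateField ℚ Qb) (hL : L.IsUnramifiedOutside S) (hN : (L.fixingSubgroup).Normal)
    (d : ↥F.fixingSubgroup) (hd : d • x = x) :
    ∃ k : ℕ, ∃ u ∈ (H42.fieldDatum S F).sub L, d = (⟨φ, hφF⟩ : ↥F.fixingSubgroup) ^ k * u := by
  have hK : (L ⊔ F).IsUnramifiedOutside S := hL.sup hF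
  have hstab : ∀ g ∈ F.fixingSubgroup, ∀ a ∈ L ⊔ F, g a ∈ L ⊔ F := by
    intro g hg a ha
    have h1 : g a ∈ (L ⊔ F).map (g : Qb →ₐ[ℚ] Qb) := ⟨a, ha, rfl⟩
    rw [IntermediateField.map_sup] at h1
    refine (sup_le_sup ?_ ?_ : L.map (g : Qb →ₐ[ℚ] Qb) ⊔ F.map (g : Qb →ₐ[ℚ] Qb) ≤ L ⊔ F) h1
    · rintro _ ⟨c, hc, rfl⟩
      exact apply_mem_of_normal hN g hc
    · rintro _ ⟨c, hc, rfl⟩
      have := (IntermediateField.mem_fixingSubgroup_iff F g).1 hg c hc
      show g c ∈ F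
      rw [this]
      exact hc
  have hdd : (d : GQ) ∈ x.1.decompositionSubgroup ℚ := by
    have h1 : ((d : GQ) • x).1 = x.1 := congrArg Subtype.val hd
    exact h1
  obtain ⟨k, hk⟩ := hgen (L ⊔ F) hK.1 le_sup_right hstab
    (hK.2 x.prime x.prime_not_mem x.1 x.liesOver) d hdd d.2
  rw [IntermediateField.fixingSubgroup_sup] at hk
  refine ⟨k, ⟨(φ ^ k)⁻¹ * (d : GQ), hk.2⟩, hk.1, Subtype.ext ?_⟩
  show (d : GQ) = φ ^ k * ((φ ^ k)⁻¹ * (d : GQ))
  rw [mul_inv_cancel_left]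

end Data

/-! ### The export -/

section Export

open Fermat.Agent.S55.H49

/-- The projection `ℚ → ℚ/ℤ`. -/
def qzHom : ℚ →+ AddCircle (1 : ℚ) := QuotientAddGroup.mk' (AddSubgroup.zmultiples (1 : ℚ))

theorem qzHom_apply (q : ℚ) : qzHom q = (q : AddCircle (1 : ℚ)) := rfl

theorem qzHom_eq_zero_iff (q : ℚ) : qzHom q = 0 ↔ ∃ j : ℤ, q = (j : ℚ) := by
  unfold qzHom
  rw [QuotientAddGroup.mk'_apply, QuotientAddGroup.eq_zero_iff, AddSubgroup.mem_zmultiples_iff]
  constructor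
  · rintro ⟨k, hk⟩
    exact ⟨k, by rw [← hk, zsmul_eq_mul, mul_one]⟩
  · rintro ⟨j, rfl⟩
    exact ⟨j, by rw [zsmul_eq_mul, mul_one]⟩

/-- An element killed by two coprime integers is zero. -/
theorem eq_zero_of_coprime_nsmul {A : Type*} [AddCommGroup A] (c : A) {m n : ℕ}
    (h : Nat.Coprime m n) (hm : m • c = 0) (hn : n • c = 0) : c = 0 := by
  have h1 : ((m : ℤ) * Nat.gcdA m n + (n : ℤ) * Nat.gcdB m n : ℤ) = 1 := by
    have := Nat.gcd_eq_gcd_ab m n
    rw [h] at this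
    exact_mod_cast this.symm
  have h2 : ((m : ℤ) * Nat.gcdA m n + (n : ℤ) * Nat.gcdB m n : ℤ) • c = 0 := by
    rw [add_smul, mul_comm (m : ℤ), mul_comm (n : ℤ), mul_smul, mul_smul, natCast_zsmul,
      natCast_zsmul, hm, hn, smul_zero, smul_zero, add_zero]
  rw [h1, one_smul] at h2
  exact h2

variable (S : Finset Nat.Primes) (F : IntermediateField ℚ Qb)

/-- **L2-P for `P_S = ℚ_S^× / E_S` over `G_S(F)`** (raw form).  Index data: a type `I` of
"places" with a finite subset `VS`; for `v ∉ VS` a valuation subring `pt v` of `ℚ̄` over a prime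
outside `S` and an element `frob v` of its stabiliser in `Gal(ℚ̄/F)` generating the stabiliser
modulo every normal level (`hdec`, from (DEC)); every valuation subring outside `S` is conjugate
to some `pt v` (`horb`), and only finitely many `v` lie over a given prime (`hfib`). -/
theorem l2p (p : ℕ) (hp : p.Prime) (hF : F.IsUnramifiedOutside S) (hsat : SatStatement p S)
    {I : Type} (VS : Finset I) (pt : I → PX S) (frob : I → ↥F.fixingSubgroup)
    (hfrob : ∀ v, v ∉ VS → frob v • pt v = pt v)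
    (hdec : ∀ v, v ∉ VS → ∀ L : IntermediateField ℚ Qb, L.IsUnramifiedOutside S →
      (L.fixingSubgroup).Normal → ∀ d : ↥F.fixingSubgroup, d • pt v = pt v →
      ∃ k : ℕ, ∃ u ∈ (H42.fieldDatum S F).sub L, d = frob v ^ k * u)
    (horb : ∀ x : PX S, ∃ v, v ∉ VS ∧ ∃ g : ↥F.fixingSubgroup, g • pt v = x)
    (hfib : ∀ ℓ : Nat.Primes, {v | v ∉ VS ∧ (pt v).prime = ℓ}.Finite) :
    ∃ lam : I → (Hlc (H42.fieldDatum S F) (H42.resF F (H42.PSx S)) 2 →+ AddCircle (1 : ℚ)),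
      (∀ v, v ∉ VS → ∀ (z : cyc (lcComplex (H42.fieldDatum S F) (H42.resF F (H42.PSx S))) 2)
        (L : IntermediateField ℚ Qb), L.IsUnramifiedOutside S → (L.fixingSubgroup).Normal →
        IsLCAt ((H42.fieldDatum S F).sub L) (H42.resF F (H42.PSx S)) (lcVal z) →
        ∀ f : ℕ, 0 < f → frob v ^ f ∈ (H42.fieldDatum S F).sub L →
          lam v ((cls (lcComplex (H42.fieldDatum S F) (H42.resF F (H42.PSx S))) 2).hom z) =
            qzHom ((∑ i ∈ Finset.range f,
              (valP S (lcVal z ![frob v ^ i, frob v] : H42.resF F (H42.PSx S)) (pt v) : ℚ)) /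
                (f : ℚ))) ∧
      (∀ c : Hlc (H42.fieldDatum S F) (H42.resF F (H42.PSx S)) 1,
        ∃ m : ℕ, 0 < m ∧ ¬ p ∣ m ∧ m • c = 0) ∧
      (∀ c : Hlc (H42.fieldDatum S F) (H42.resF F (H42.PSx S)) 2,
        (∀ v, v ∉ VS → lam v c = 0) → ∃ m : ℕ, 0 < m ∧ ¬ p ∣ m ∧ m • c = 0) ∧
      (∀ c : Hlc (H42.fieldDatum S F) (H42.resF F (H42.PSx S)) 2,
        ∃ W : Finset I, ∀ v, v ∉ W → lam v c = 0) :=
  l2p_abs (H42.fieldDatum S F) (valData S F) p hp
    (fun L hL => (H42.fieldDatum_finiteIndex S F L hL).index_ne_zero) (sat_of hF hsat)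
    qzHom qzHom_eq_zero_iff VS pt frob hfrob hdec horb hfib

/-- Functoriality in the coefficients preserves the level of a cocycle. -/
theorem isLCAt_cycMap {G : Type} [Group G] (D : LevelDatum G) {A B : Rep.{0} ℤ G} (ψ : A ⟶ B)
    (U : Subgroup G) {n : ℕ} (z : cyc (lcComplex D A) n) (hz : IsLCAt U A (lcVal z)) :
    IsLCAt U B (lcVal (cycMap (lcMapCoeff D ψ) n z)) := by
  refine ⟨fun g s hs => ?_, fun g s hs => ?_⟩
  · show ψ.hom (lcVal z (g * s)) = ψ.hom (lcVal z g)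
    rw [hz.1 g s hs]
  · show B.ρ s (ψ.hom (lcVal z g)) = ψ.hom (lcVal z g)
    rw [← Rep.hom_comm_apply, hz.2 g s hs]

/-- An element of the middle term of `gsShortComplexF S F`, as an element of `ℚ_S^×`. -/
def toQS (y : (H42.gsShortComplexF S F).X₂) : H42.QSx S := y

/-- The valuation of the image in `P_S` of an element of `ℚ_S^×`. -/
theorem valP_gsG (y : (H42.gsShortComplexF S F).X₂) (x : PX S) :
    (valData S F).val ((H42.gsShortComplexF S F).g.hom y) x = ordQ S (toQS S F y) x :=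
  valP_qsToPs (toQS S F y) x

/-- **L2-P in the shape of `H70.GSArith.Good`** (`hPa`, `hPb`, `hPbfin`, and the formula needed
for `hlam`): `pp` is the projection of `ℚ/ℤ` to its `p`-primary component (any additive
endomorphism which is the identity on `p`-primary elements), `lam v = pp ∘ lam₀ v`. -/
theorem l2p_good (p : ℕ) (hp : p.Prime) (hF : F.IsUnramifiedOutside S) (hsat : SatStatement p S)
    {I : Type} (VS : Finset I) (pt : I → PX S) (frob : I → ↥F.fixingSubgroup)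
    (hfrob : ∀ v, v ∉ VS → frob v • pt v = pt v)
    (hdec : ∀ v, v ∉ VS → ∀ L : IntermediateField ℚ Qb, L.IsUnramifiedOutside S →
      (L.fixingSubgroup).Normal → ∀ d : ↥F.fixingSubgroup, d • pt v = pt v →
      ∃ k : ℕ, ∃ u ∈ (H42.fieldDatum S F).sub L, d = frob v ^ k * u)
    (horb : ∀ x : PX S, ∃ v, v ∉ VS ∧ ∃ g : ↥F.fixingSubgroup, g • pt v = x)
    (hfib : ∀ ℓ : Nat.Primes, {v | v ∉ VS ∧ (pt v).prime = ℓ}.Finite)
    (pp : AddCircle (1 : ℚ) →+ AddCircle (1 : ℚ))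
    (hpp : ∀ t : AddCircle (1 : ℚ), (∃ k : ℕ, p ^ k • t = 0) → pp t = t) :
    ∃ lam : I → (Hlc (H42.fieldDatum S F) (H42.resF F (H42.PSx S)) 2 →+ AddCircle (1 : ℚ)),
      (∀ v, v ∉ VS → ∀ (z : cyc (lcComplex (H42.fieldDatum S F) (H42.gsShortComplexF S F).X₂) 2)
        (L : IntermediateField ℚ Qb), L.IsUnramifiedOutside S → (L.fixingSubgroup).Normal →
        IsLCAt ((H42.fieldDatum S F).sub L) (H42.gsShortComplexF S F).X₂ (lcVal z) →
        ∀ f : ℕ, 0 < f → frob v ^ f ∈ (H42.fieldDatum S F).sub L →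
          lam v (H99.lcG (H42.fieldDatum S F) (H42.gsShortComplexF S F) 2
            ((cls (lcComplex (H42.fieldDatum S F) (H42.gsShortComplexF S F).X₂) 2).hom z)) =
            pp (qzHom ((∑ i ∈ Finset.range f,
              (ordQ S (toQS S F (lcVal z ![frob v ^ i, frob v])) (pt v) : ℚ)) / (f : ℚ)))) ∧
      (∀ c : Hlc (H42.fieldDatum S F) (H42.resF F (H42.PSx S)) 1,
        (∃ k : ℕ, p ^ k • c = 0) → c = 0) ∧
      (∀ c : Hlc (H42.fieldDatum S F) (H42.resF F (H42.PSx S)) 2,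
        (∃ k : ℕ, p ^ k • c = 0) → (∀ v, v ∉ VS → lam v c = 0) → c = 0) ∧
      (∀ c : Hlc (H42.fieldDatum S F) (H42.resF F (H42.PSx S)) 2,
        ∃ W : Finset I, ∀ v, v ∉ W → lam v c = 0) := by
  obtain ⟨lam₀, h1, h2, h3, h4⟩ := l2p S F p hp hF hsat VS pt frob hfrob hdec horb hfib
  have hcop : ∀ {m : ℕ} (k : ℕ), ¬ p ∣ m → Nat.Coprime m (p ^ k) := fun k hm =>
    (Nat.Coprime.pow_left k ((Nat.Prime.coprime_iff_not_dvd hp).2 hm)).symm
  refine ⟨fun v => pp.comp (lam₀ v), ?_, ?_, ?_, ?_⟩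
  · intro v hv z L hL hN hz f hf hfU
    have hz' := isLCAt_cycMap (H42.fieldDatum S F) (H42.gsShortComplexF S F).g
      ((H42.fieldDatum S F).sub L) z hz
    have e := h1 v hv _ L hL hN hz' f hf hfU
    rw [H99.lcG_cls (X := H42.gsShortComplexF S F) (H42.fieldDatum S F) 2 z]
    refine congrArg pp (e.trans ?_)
    refine congrArg (fun t : ℚ => qzHom (t / (f : ℚ))) (Finset.sum_congr rfl fun i _ => ?_)
    exact congrArg (Int.cast : ℤ → ℚ) (valP_gsG S F (lcVal z ![frob v ^ i, frob v]) (pt v))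
  · rintro c ⟨k, hk⟩
    obtain ⟨m, -, hmp, hm⟩ := h2 c
    exact eq_zero_of_coprime_nsmul c (hcop k hmp) hm hk
  · rintro c ⟨k, hk⟩ hc
    have h5 : ∀ v, v ∉ VS → lam₀ v c = 0 := by
      intro v hv
      have h6 : pp (lam₀ v c) = lam₀ v c := hpp _ ⟨k, by rw [← map_nsmul, hk, map_zero]⟩
      rw [← h6]
      exact hc v hv
    obtain ⟨m, -, hmp, hm⟩ := h3 c h5
    exact eq_zero_of_coprime_nsmul c (hcop k hmp) hm hk
  · intro c
    obtain ⟨W, hW⟩ := h4 c
    exact ⟨W, fun v hv => by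
      show pp (lam₀ v c) = 0
      rw [hW v hv, map_zero]⟩

end Export

end Fermat.Agent.S55.H93

end
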